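import Mathlib
import Fermat.Agent.CAR.LiftRatB
import Fermat.Agent.CAR.V3.MidPull

/-!
# CAR (Lf-5): `(T3)`, `(T3')` over the inertia field, in the literal shape of `CAR/Lift.lean`

`A` a valuation subring of `ℚ̄` over `q`, `K0 = K0 A` its inertia field, `W0 = A ∩ K0`,
`resW0 : W0 → k = A/𝔪`.  For a base function `B₀` over `(K0, W0, resW0)` and a base function
`B` over `(ℚ̄, A, residue)` with `bcK B₀.x = B.x`:

* `T3_K0 : Lift.T3 B … → Lift.T3 B₀ …`, `T3'_K0 : Lift.T3' B … → Lift.T3' B₀ …`,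

so that `Lift.lift_frac`, `Lift.lift_sep`, `Lift.lift_frac_inf`, `Lift.lift_sep_inf` apply
verbatim at `(L, A, π) := (K0, W0, resW0)`.

Ingredients: `LiftRatB.T3_rational` (helper90: `K0`-rational lifts over `ℚ̄`), the Gauss bridge
of `CAR/V3/MidPull.lean`, and the descent of integrality along `bcK`
(`isIntegral_of_map_adjoin`, `isIntegral_of_bcK`).
-/

set_option autoImplicit false
set_option linter.unusedSectionVars false
set_option linter.style.haveILetI false

namespace Fermat.Agent.CAR.LiftK0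

open AlgebraicCurve HahnSeries ModularCurve Polynomial
open Fermat.Agent.Lib.Red Fermat.Agent.Padic Fermat.Agent.ESJ.Dict.Bc Fermat.Agent.CAR.K0
  Fermat.Agent.Lib.FF

local notation "Qb" => AlgebraicClosure ℚ

/-! ### Descent of integrality along a base change of constants -/

section Integral

variable {K₀ L₀ F₀ F : Type*} [Field K₀] [Field L₀] [Field F₀] [Field F] [Algebra K₀ F₀]
  [Algebra L₀ F] [Algebra K₀ L₀] [Algebra.IsAlgebraic K₀ L₀] (j : F₀ →+* F)
  (hj : ∀ a : K₀, j (algebraMap K₀ F₀ a) = algebraMap L₀ F (algebraMap K₀ L₀ a))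

include hj in
/-- Every element of `L₀[j x₀]` is integral over `K₀[x₀]` (through `j`). -/
theorem isIntegralElem_of_mem_adjoin (x₀ : F₀) {r : F} (hr : r ∈ Algebra.adjoin L₀ {j x₀}) :
    (j.comp (algebraMap ↥(Algebra.adjoin K₀ {x₀}) F₀)).IsIntegralElem r := by
  induction hr using Algebra.adjoin_induction with
  | mem x hx =>
    rw [Set.mem_singleton_iff] at hx
    subst hx
    exact (j.comp (algebraMap ↥(Algebra.adjoin K₀ {x₀}) F₀)).isIntegralElem_map
      (x := ⟨x₀, Algebra.subset_adjoin rfl⟩)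
  | algebraMap c =>
    have hc : IsIntegral K₀ c := (Algebra.IsAlgebraic.isAlgebraic (R := K₀) c).isIntegral
    obtain ⟨p, hp, hpc⟩ := hc
    refine ⟨p.map (algebraMap K₀ ↥(Algebra.adjoin K₀ {x₀})), hp.map _, ?_⟩
    rw [Polynomial.eval₂_map]
    have h1 : ((j.comp (algebraMap ↥(Algebra.adjoin K₀ {x₀}) F₀)).comp
        (algebraMap K₀ ↥(Algebra.adjoin K₀ {x₀}))) = (algebraMap L₀ F).comp (algebraMap K₀ L₀) :=
      RingHom.ext fun a => hj a
    rw [h1, ← Polynomial.hom_eval₂, hpc, map_zero]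
  | add x y _ _ hx hy => exact RingHom.IsIntegralElem.add _ hx hy
  | mul x y _ _ hx hy => exact RingHom.IsIntegralElem.mul _ hx hy

include hj in
/-- **Descent of integrality.**  If `j z` is integral over `L₀[j x₀]` then `z` is integral over
`K₀[x₀]` (`L₀/K₀` algebraic, `j : F₀ → F` a ring homomorphism of fields over `K₀ → L₀`). -/
theorem isIntegral_of_map_adjoin (x₀ z : F₀)
    (h : IsIntegral ↥(Algebra.adjoin L₀ {j x₀}) (j z)) :
    IsIntegral ↥(Algebra.adjoin K₀ {x₀}) z := by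
  let g : ↥(Algebra.adjoin K₀ {x₀}) →+* F := j.comp (algebraMap ↥(Algebra.adjoin K₀ {x₀}) F₀)
  letI : Algebra ↥(Algebra.adjoin K₀ {x₀}) F := g.toAlgebra
  have hmem : ∀ r : ↥(Algebra.adjoin L₀ {j x₀}),
      (r : F) ∈ integralClosure ↥(Algebra.adjoin K₀ {x₀}) F :=
    fun r => isIntegralElem_of_mem_adjoin j hj x₀ r.2
  obtain ⟨f, hf, hfz⟩ := h
  let ψ : ↥(Algebra.adjoin L₀ {j x₀}) →+* ↥(integralClosure ↥(Algebra.adjoin K₀ {x₀}) F) :=
    (Algebra.adjoin L₀ {j x₀}).val.toRingHom.codRestrict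
      (integralClosure ↥(Algebra.adjoin K₀ {x₀}) F) hmem
  have h1 : IsIntegral ↥(integralClosure ↥(Algebra.adjoin K₀ {x₀}) F) (j z) := by
    refine ⟨f.map ψ, hf.map ψ, ?_⟩
    rw [Polynomial.eval₂_map]
    exact hfz
  have h2 : IsIntegral ↥(Algebra.adjoin K₀ {x₀}) (j z) :=
    isIntegral_trans (R := ↥(Algebra.adjoin K₀ {x₀}))
      (A := ↥(integralClosure ↥(Algebra.adjoin K₀ {x₀}) F)) (j z) h1
  obtain ⟨p, hp, hpz⟩ := h2
  refine ⟨p, hp, ?_⟩
  have h3 : j (Polynomial.eval₂ (algebraMap ↥(Algebra.adjoin K₀ {x₀}) F₀) z p) = 0 := by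
    rw [Polynomial.hom_eval₂]
    exact hpz
  exact (map_eq_zero j).mp h3

end Integral

/-! ### The modular function fields -/

section Main

set_option synthInstance.maxHeartbeats 400000 in
/-- `bcK`-form of the descent of integrality (finite chart). -/
theorem isIntegral_of_bcK (K : IntermediateField ℚ Qb)
    (F₀ : IntermediateField ℚ (LaurentSeries ℚ)) (x₀ z : ↥(laurentBaseChange ↥K F₀))
    (h : IsIntegral ↥(Algebra.adjoin Qb {bcK (algebraMap ↥K Qb) F₀ x₀})
      (bcK (algebraMap ↥K Qb) F₀ z)) :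
    IsIntegral ↥(Algebra.adjoin ↥K {x₀}) z := by
  haveI : Algebra.IsAlgebraic ℚ Qb := Fermat.Agent.ESJ.Jac.FiniteLevel.isAlgebraic_rat_closure
  haveI : Algebra.IsAlgebraic ↥K Qb := Algebra.IsAlgebraic.tower_top (K := ℚ) ↥K
  exact isIntegral_of_map_adjoin (bcK (algebraMap ↥K Qb) F₀)
    (fun a => bcK_algebraMap (algebraMap ↥K Qb) F₀ a) x₀ z h

set_option synthInstance.maxHeartbeats 400000 in
/-- `bcK`-form of the descent of integrality (chart at infinity). -/
theorem isIntegral_inv_of_bcK (K : IntermediateField ℚ Qb)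
    (F₀ : IntermediateField ℚ (LaurentSeries ℚ)) (x₀ z : ↥(laurentBaseChange ↥K F₀))
    (h : IsIntegral ↥(Algebra.adjoin Qb {(bcK (algebraMap ↥K Qb) F₀ x₀)⁻¹})
      (bcK (algebraMap ↥K Qb) F₀ z)) :
    IsIntegral ↥(Algebra.adjoin ↥K {x₀⁻¹}) z := by
  refine isIntegral_of_bcK K F₀ x₀⁻¹ z ?_
  rw [map_inv₀]
  exact h

variable (A : ValuationSubring Qb) (N : ℕ) [NeZero N]

/-- The reduced base functions agree. -/
theorem xt_eq_of_bcK (hN : (N : IsLocalRing.ResidueField A) ≠ 0)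
    (B₀ : BaseFn.Data (W0 A) (resW0 A) N) (B : BaseFn.Data A (IsLocalRing.residue A) N)
    (hx : bcK (algebraMap ↥(K0 A) Qb) (modularFunctionFieldFull N) B₀.x = B.x) :
    B₀.xt (resW0_eq_zero_of_not_isUnit A) hN = B.xt (residue_eq_zero_of_not_isUnit A) hN := by
  apply Subtype.ext
  rw [BaseFn.Data.coe_xt, BaseFn.Data.coe_xt]
  have h1 : coeffMap (algebraMap ↥(K0 A) Qb) (incl (W0 A) B₀.X) = incl A B.X := by
    have h2 := congrArg Subtype.val hx
    exact h2
  rw [Fermat.Agent.CAR.V3.MidRing.coeffMap_incl (algebraMap ↥(K0 A) Qb) (W0 A) A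
    (fun a => a.2)] at h1
  have h3 := incl_injective A h1
  rw [← h3]
  exact (Fermat.Agent.CAR.V3.MidRing.rbar_coeffMap (algebraMap ↥(K0 A) Qb) (W0 A) A (resW0 A)
    (IsLocalRing.residue A) (fun a => a.2) (Fermat.Agent.CAR.V3.MidRing.mapVal_K0 A) B₀.X).symm

/-- A `K0`-rational base function is fixed by the inertia group. -/
theorem smul_x_of_bcK (B₀ : BaseFn.Data (W0 A) (resW0 A) N)
    (B : BaseFn.Data A (IsLocalRing.residue A) N)
    (hx : bcK (algebraMap ↥(K0 A) Qb) (modularFunctionFieldFull N) B₀.x = B.x)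
    (σ : Qb ≃ₐ[ℚ] Qb) (hσ : σ ∈ A.inertiaSubgroupIn ℚ) :
    arithmeticGalois (modularFunctionFieldFull N) σ • B.x = B.x := by
  apply Subtype.ext
  rw [coe_arithmeticGalois_smul, ← hx, coe_bcK, coeffMap_coeffMap]
  exact coeffMap_congr (RingHom.ext fun a => (mem_K0_iff A _).mp a.2 σ hσ) _

/-- A `K0`-rational function whose base change is Gauss-integral over `A` is Gauss-integral
over `W0`, with the same reduction. -/
theorem mem_Ow_of_subEmb (hN : (N : IsLocalRing.ResidueField A) ≠ 0)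
    (z : ↥(laurentBaseChange ↥(K0 A) (modularFunctionFieldFull N))) (y : OwA A N hN)
    (hz : subEmb ↥(K0 A) N z = (y : ↥(modularFunctionFieldBar N))) :
    ∃ hzO : z ∈ Ow (W0 A) (resW0 A) N hN,
      redF (W0 A) (resW0 A) N (resW0_eq_zero_of_not_isUnit A) hN ⟨z, hzO⟩ = redA A N hN y := by
  have h1 : coeffMap (algebraMap ↥(inertiaField A) Qb) (z : LaurentSeries ↥(K0 A)) =
      ((y : ↥(modularFunctionFieldBar N)) : LaurentSeries Qb) := congrArg Subtype.val hz
  have hy1 : coeffMap (algebraMap ↥(inertiaField A) Qb)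
      (z : LaurentSeries ↥(K0 A)) ∈ gaussRing A (IsLocalRing.residue A) := by
    rw [h1]
    exact y.2
  have hor : (z : LaurentSeries ↥(K0 A)) ∈ gaussRing (W0 A) (resW0 A) ∨
      (z : LaurentSeries ↥(K0 A))⁻¹ ∈ gaussRing (W0 A) (resW0 A) := by
    rcases (Ow (W0 A) (resW0 A) N hN).mem_or_inv_mem z with h1 | h1
    · exact Or.inl h1
    · exact Or.inr h1
  have hzO : (z : LaurentSeries ↥(K0 A)) ∈ gaussRing (W0 A) (resW0 A) :=
    Fermat.Agent.CAR.V3.MidRing.mem_gaussRing_of_bc_mem A hor hy1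
  refine ⟨(mem_Ow_iff hN z).mpr hzO, ?_⟩
  apply Subtype.ext
  rw [coe_redF, coe_redF]
  have h2 := Fermat.Agent.CAR.V3.MidRing.red_bc A hzO hy1
  show red (W0 A) (resW0 A) ⟨(z : LaurentSeries ↥(K0 A)), hzO⟩ =
    red A (IsLocalRing.residue A) ⟨((y : ↥(modularFunctionFieldBar N)) : LaurentSeries Qb), y.2⟩
  rw [← h2]
  congr 1
  exact Subtype.ext h1

set_option synthInstance.maxHeartbeats 400000 in
set_option maxHeartbeats 1000000 in
/-- **(T3) over the inertia field** `(K0, W0, resW0)`, in the literal shape of `Lift.T3`. -/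
theorem T3_K0 {q : ℕ} (hq : q.Prime) (hA : A.LiesOverPrime q)
    (hN : (N : IsLocalRing.ResidueField A) ≠ 0)
    (B₀ : BaseFn.Data (W0 A) (resW0 A) N) (B : BaseFn.Data A (IsLocalRing.residue A) N)
    (hx : bcK (algebraMap ↥(K0 A) Qb) (modularFunctionFieldFull N) B₀.x = B.x)
    (h : Lift.T3 B (residue_eq_zero_of_not_isUnit A) hN) :
    Lift.T3 B₀ (resW0_eq_zero_of_not_isUnit A) hN := by
  intro s hs
  have hxt := xt_eq_of_bcK A N hN B₀ B hx
  obtain ⟨y, hy, hreg, z, hz⟩ := LiftRatB.T3_rational A N hq hA hN B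
    (smul_x_of_bcK A N B₀ B hx) h s (fun Q hQ => hs Q (by rw [hxt]; exact hQ))
  obtain ⟨hzO, hred⟩ := mem_Ow_of_subEmb A N hN z y hz
  refine ⟨⟨z, hzO⟩, hred.trans hy, ?_⟩
  haveI : FiniteDimensional ↥(IntermediateField.adjoin ↥(K0 A) {B₀.x})
      ↥(laurentBaseChange ↥(K0 A) (modularFunctionFieldFull N)) :=
    B₀.finite_L (resW0_eq_zero_of_not_isUnit A) (resW0_surjective hq hA) hN
  haveI : FiniteDimensional ↥(IntermediateField.adjoin Qb {B.x})
      ↥(laurentBaseChange Qb (modularFunctionFieldFull N)) :=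
    B.finite_L (residue_eq_zero_of_not_isUnit A) IsLocalRing.residue_surjective hN
  rw [← Holo.isIntegral_adjoin_iff B₀.x z]
  refine isIntegral_of_bcK (K0 A) (modularFunctionFieldFull N) B₀.x z ?_
  rw [hx]
  have h1 : bcK (algebraMap ↥(K0 A) Qb) (modularFunctionFieldFull N) z =
      (y : ↥(laurentBaseChange Qb (modularFunctionFieldFull N))) :=
    Subtype.ext (congrArg Subtype.val hz)
  rw [h1, Holo.isIntegral_adjoin_iff B.x]
  exact hreg

set_option synthInstance.maxHeartbeats 400000 in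
set_option maxHeartbeats 1000000 in
/-- **(T3') over the inertia field** `(K0, W0, resW0)`, in the literal shape of `Lift.T3'`. -/
theorem T3'_K0 {q : ℕ} (hq : q.Prime) (hA : A.LiesOverPrime q)
    (hN : (N : IsLocalRing.ResidueField A) ≠ 0)
    (B₀ : BaseFn.Data (W0 A) (resW0 A) N) (B : BaseFn.Data A (IsLocalRing.residue A) N)
    (hx : bcK (algebraMap ↥(K0 A) Qb) (modularFunctionFieldFull N) B₀.x = B.x)
    (h : Lift.T3' B (residue_eq_zero_of_not_isUnit A) hN) :
    Lift.T3' B₀ (resW0_eq_zero_of_not_isUnit A) hN := by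
  intro s hs
  have hxt := xt_eq_of_bcK A N hN B₀ B hx
  obtain ⟨y, hy, hreg, z, hz⟩ := LiftRatB.T3'_rational A N hq hA hN B
    (smul_x_of_bcK A N B₀ B hx) h s (fun Q hQ => hs Q (by rw [hxt]; exact hQ))
  obtain ⟨hzO, hred⟩ := mem_Ow_of_subEmb A N hN z y hz
  refine ⟨⟨z, hzO⟩, hred.trans hy, ?_⟩
  haveI : FiniteDimensional ↥(IntermediateField.adjoin ↥(K0 A) {B₀.x})
      ↥(laurentBaseChange ↥(K0 A) (modularFunctionFieldFull N)) :=
    B₀.finite_L (resW0_eq_zero_of_not_isUnit A) (resW0_surjective hq hA) hN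
  haveI : FiniteDimensional ↥(IntermediateField.adjoin Qb {B.x})
      ↥(laurentBaseChange Qb (modularFunctionFieldFull N)) :=
    B.finite_L (residue_eq_zero_of_not_isUnit A) IsLocalRing.residue_surjective hN
  rw [← Holo.isIntegral_adjoin_inv_iff B₀.x z]
  refine isIntegral_inv_of_bcK (K0 A) (modularFunctionFieldFull N) B₀.x z ?_
  rw [hx]
  have h1 : bcK (algebraMap ↥(K0 A) Qb) (modularFunctionFieldFull N) z =
      (y : ↥(laurentBaseChange Qb (modularFunctionFieldFull N))) :=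
    Subtype.ext (congrArg Subtype.val hz)
  rw [h1, Holo.isIntegral_adjoin_inv_iff B.x]
  exact hreg

end Main

end Fermat.Agent.CAR.LiftK0
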