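/-
CAR (Lf-5), instance side (helper96): the base functions `J(q^N)`, `y₂(q^m)`, `t₃(q^m)` over
`(K0, W0, resW0)` and over `(ℚ̄, A, residue)` correspond under the coefficientwise base change
`bcK : K0·F_N → ℚ̄·F_N`, and have the same reduction.

* `bcK_x_of_coeffMap`, `xt_eq_of_coeffMap` : generic — two base data whose series correspond under
  `W0 → A`;
* `bcK_ofJ_x`, `bcK_ofHaupt2_x`, `bcK_ofHaupt3_x` : the hypothesis `hx` of the descent theorem
  `T3_K0` (`CAR/LiftK0/T3K0.lean`) for the three base functions; `ofJ_xt_eq`, `ofHaupt2_xt_eq`,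
  `ofHaupt3_xt_eq` : equality of the reduced base functions;
* `T3Descent`, `T3'Descent` : the literal statement of `T3_K0`, `T3'_K0` as a `Prop`;
  `T3_ofJ_K0_of`, `T3'_ofJ_K0_of`, `T3_ofHaupt2_K0_of`, … : **(T3), (T3') over `(K0, W0, resW0)`**
  for the three base functions from the descent statement and RED's `DiscInst.hT3_of*` over `ℚ̄`.
-/
import Mathlib
import Fermat.Agent.CAR.K0
import Fermat.Agent.CAR.Lift
import Fermat.Agent.Lib.Red.DiscFinal
import Fermat.Agent.Lib.Red.HauptData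
import Fermat.Agent.Lib.FF.CharP.ModLInst
import Fermat.Agent.ESJ.Dict.Bc
import Fermat.Agent.Padic.Lattice

set_option autoImplicit false
set_option linter.unusedSectionVars false

namespace Fermat.Agent.CAR.LiftK0.Inst

open AlgebraicCurve ModularCurve HahnSeries
open Fermat.Agent.Lib.Red Fermat.Agent.Lib.Red.BaseFn Fermat.Agent.ESJ.Dict.Bc Fermat.Agent.S28
open Fermat.Agent.Padic

local notation "Qb" => AlgebraicClosure ℚ

noncomputable section

variable (A : ValuationSubring Qb)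

/-! ### Generic correspondence of base data -/

/-- `ℚ̄ ⊇ A ⊇ W0 ⊆ K0`: the two inclusions of `W0` into `ℚ̄` agree. -/
theorem algebraMap_comp_subtype_W0 :
    (algebraMap ↥(K0.K0 A) Qb).comp (K0.W0 A).subtype = A.subtype.comp (K0.inclW0 A) :=
  RingHom.ext fun _ => rfl

/-- The residue map of `W0` is the residue map of `A` after `W0 → A`. -/
theorem resW0_eq_comp : K0.resW0 A = (IsLocalRing.residue A).comp (K0.inclW0 A) := rfl

set_option synthInstance.maxHeartbeats 400000 in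
/-- Two base data whose series correspond under `W0 → A` have corresponding base functions. -/
theorem bcK_x_of_coeffMap {N : ℕ} [NeZero N] (B₀ : BaseFn.Data (K0.W0 A) (K0.resW0 A) N)
    (B : BaseFn.Data A (IsLocalRing.residue A) N)
    (h : coeffMap (K0.inclW0 A) B₀.X = B.X) :
    bcK (algebraMap ↥(K0.K0 A) Qb) (modularFunctionFieldFull N) B₀.x = B.x := by
  apply Subtype.ext
  rw [coe_bcK, Data.coe_x, Data.coe_x, ← h]
  show coeffMap (algebraMap ↥(K0.K0 A) Qb) (coeffMap (K0.W0 A).subtype B₀.X)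
    = coeffMap A.subtype (coeffMap (K0.inclW0 A) B₀.X)
  rw [coeffMap_coeffMap, coeffMap_coeffMap, algebraMap_comp_subtype_W0]

set_option synthInstance.maxHeartbeats 400000 in
/-- Two base data whose series correspond under `W0 → A` have the same reduced base function. -/
theorem xt_eq_of_coeffMap {N : ℕ} [NeZero N] (B₀ : BaseFn.Data (K0.W0 A) (K0.resW0 A) N)
    (B : BaseFn.Data A (IsLocalRing.residue A) N)
    (h : coeffMap (K0.inclW0 A) B₀.X = B.X) (hN : (N : IsLocalRing.ResidueField A) ≠ 0) :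
    B₀.xt (K0.resW0_eq_zero_of_not_isUnit A) hN = B.xt (residue_eq_zero_of_not_isUnit A) hN := by
  apply Subtype.ext
  rw [Data.coe_xt, Data.coe_xt, ← h]
  show coeffMap (K0.resW0 A) B₀.X = coeffMap (IsLocalRing.residue A) (coeffMap (K0.inclW0 A) B₀.X)
  rw [coeffMap_coeffMap]
  rfl

/-! ### The three base functions -/

set_option synthInstance.maxHeartbeats 400000 in
/-- `hx` for `x = J(q^N)`. -/
theorem bcK_ofJ_x (N : ℕ) [NeZero N] :
    bcK (algebraMap ↥(K0.K0 A) Qb) (modularFunctionFieldFull N)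
        (Data.ofJ (K0.W0 A) (K0.resW0 A) N).x
      = (Data.ofJ A (IsLocalRing.residue A) N).x :=
  bcK_x_of_coeffMap A _ _ (TD.coeffMap_Jd (K0.inclW0 A) N)

set_option synthInstance.maxHeartbeats 400000 in
theorem ofJ_xt_eq (N : ℕ) [NeZero N] (hN : (N : IsLocalRing.ResidueField A) ≠ 0) :
    (Data.ofJ (K0.W0 A) (K0.resW0 A) N).xt (K0.resW0_eq_zero_of_not_isUnit A) hN
      = (Data.ofJ A (IsLocalRing.residue A) N).xt (residue_eq_zero_of_not_isUnit A) hN :=
  xt_eq_of_coeffMap A _ _ (TD.coeffMap_Jd (K0.inclW0 A) N) hN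

set_option synthInstance.maxHeartbeats 400000 in
/-- `hx` for the Hauptmodul of level 2, `x = y₂(q^m)` at level `M = m * 2`. -/
theorem bcK_ofHaupt2_x (M m : ℕ) [NeZero M] [NeZero m] (hM : M = m * 2)
    (h2 : (2 : IsLocalRing.ResidueField A) ≠ 0) :
    bcK (algebraMap ↥(K0.K0 A) Qb) (modularFunctionFieldFull M)
        (ofHaupt2 (K0.W0 A) (K0.resW0 A) M m hM h2).x
      = (ofHaupt2 A (IsLocalRing.residue A) M m hM h2).x :=
  bcK_x_of_coeffMap A _ _ (HauptBase.coeffMap_x2S (K0.inclW0 A) m)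

set_option synthInstance.maxHeartbeats 400000 in
theorem ofHaupt2_xt_eq (M m : ℕ) [NeZero M] [NeZero m] (hM : M = m * 2)
    (h2 : (2 : IsLocalRing.ResidueField A) ≠ 0) (hN : (M : IsLocalRing.ResidueField A) ≠ 0) :
    (ofHaupt2 (K0.W0 A) (K0.resW0 A) M m hM h2).xt (K0.resW0_eq_zero_of_not_isUnit A) hN
      = (ofHaupt2 A (IsLocalRing.residue A) M m hM h2).xt (residue_eq_zero_of_not_isUnit A) hN :=
  xt_eq_of_coeffMap A _ _ (HauptBase.coeffMap_x2S (K0.inclW0 A) m) hN

set_option synthInstance.maxHeartbeats 400000 in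
/-- `hx` for the Hauptmodul of level 3, `x = t₃(q^m)` at level `M = m * 3`. -/
theorem bcK_ofHaupt3_x (M m : ℕ) [NeZero M] [NeZero m] (hM : M = m * 3)
    (h3 : (3 : IsLocalRing.ResidueField A) ≠ 0) :
    bcK (algebraMap ↥(K0.K0 A) Qb) (modularFunctionFieldFull M)
        (ofHaupt3 (K0.W0 A) (K0.resW0 A) M m hM h3).x
      = (ofHaupt3 A (IsLocalRing.residue A) M m hM h3).x :=
  bcK_x_of_coeffMap A _ _ (HauptBase.coeffMap_x3S (K0.inclW0 A) m)

set_option synthInstance.maxHeartbeats 400000 in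
theorem ofHaupt3_xt_eq (M m : ℕ) [NeZero M] [NeZero m] (hM : M = m * 3)
    (h3 : (3 : IsLocalRing.ResidueField A) ≠ 0) (hN : (M : IsLocalRing.ResidueField A) ≠ 0) :
    (ofHaupt3 (K0.W0 A) (K0.resW0 A) M m hM h3).xt (K0.resW0_eq_zero_of_not_isUnit A) hN
      = (ofHaupt3 A (IsLocalRing.residue A) M m hM h3).xt (residue_eq_zero_of_not_isUnit A) hN :=
  xt_eq_of_coeffMap A _ _ (HauptBase.coeffMap_x3S (K0.inclW0 A) m) hN

/-! ### (T3), (T3') over `(K0, W0, resW0)` from the descent statement -/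

set_option synthInstance.maxHeartbeats 400000 in
/-- The literal statement of the descent theorem `T3_K0` (`CAR/LiftK0/T3K0.lean`). -/
def T3Descent (N : ℕ) [NeZero N] (hN : (N : IsLocalRing.ResidueField A) ≠ 0) : Prop :=
  ∀ (B₀ : BaseFn.Data (K0.W0 A) (K0.resW0 A) N) (B : BaseFn.Data A (IsLocalRing.residue A) N),
    bcK (algebraMap ↥(K0.K0 A) Qb) (modularFunctionFieldFull N) B₀.x = B.x →
    Lift.T3 B (residue_eq_zero_of_not_isUnit A) hN →
    Lift.T3 B₀ (K0.resW0_eq_zero_of_not_isUnit A) hN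

set_option synthInstance.maxHeartbeats 400000 in
/-- The literal statement of the descent theorem `T3'_K0`. -/
def T3'Descent (N : ℕ) [NeZero N] (hN : (N : IsLocalRing.ResidueField A) ≠ 0) : Prop :=
  ∀ (B₀ : BaseFn.Data (K0.W0 A) (K0.resW0 A) N) (B : BaseFn.Data A (IsLocalRing.residue A) N),
    bcK (algebraMap ↥(K0.K0 A) Qb) (modularFunctionFieldFull N) B₀.x = B.x →
    Lift.T3' B (residue_eq_zero_of_not_isUnit A) hN →
    Lift.T3' B₀ (K0.resW0_eq_zero_of_not_isUnit A) hN

variable {A}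

set_option synthInstance.maxHeartbeats 400000 in
/-- **(T3) over `K0` for `x = J(q^N)`** (residue characteristic `≥ 5`). -/
theorem T3_ofJ_K0_of {N : ℕ} [NeZero N] {hN : (N : IsLocalRing.ResidueField A) ≠ 0}
    (hdesc : T3Descent A N hN) (h1728 : (1728 : IsLocalRing.ResidueField A) ≠ 0) :
    Lift.T3 (Data.ofJ (K0.W0 A) (K0.resW0 A) N) (K0.resW0_eq_zero_of_not_isUnit A) hN := by
  have := Fermat.Agent.Lib.FF.CharP.isAlgClosed_residueField A
  exact hdesc _ _ (bcK_ofJ_x A N)
    (DiscInst.hT3_ofJ N (residue_eq_zero_of_not_isUnit A) IsLocalRing.residue_surjective hN h1728)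

set_option synthInstance.maxHeartbeats 400000 in
/-- **(T3') over `K0` for `x = J(q^N)`** (residue characteristic `≥ 5`). -/
theorem T3'_ofJ_K0_of {N : ℕ} [NeZero N] {hN : (N : IsLocalRing.ResidueField A) ≠ 0}
    (hdesc : T3'Descent A N hN) (h1728 : (1728 : IsLocalRing.ResidueField A) ≠ 0) :
    Lift.T3' (Data.ofJ (K0.W0 A) (K0.resW0 A) N) (K0.resW0_eq_zero_of_not_isUnit A) hN := by
  have := Fermat.Agent.Lib.FF.CharP.isAlgClosed_residueField A
  exact hdesc _ _ (bcK_ofJ_x A N)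
    (DiscInst.hT3'_ofJ N (residue_eq_zero_of_not_isUnit A) IsLocalRing.residue_surjective hN h1728)

set_option synthInstance.maxHeartbeats 400000 in
/-- **(T3) over `K0` for the Hauptmodul of level 2.** -/
theorem T3_ofHaupt2_K0_of {M m : ℕ} [NeZero M] [NeZero m] (hM : M = m * 2)
    {hN : (M : IsLocalRing.ResidueField A) ≠ 0} (hdesc : T3Descent A M hN)
    (h2 : (2 : IsLocalRing.ResidueField A) ≠ 0) :
    Lift.T3 (ofHaupt2 (K0.W0 A) (K0.resW0 A) M m hM h2) (K0.resW0_eq_zero_of_not_isUnit A) hN := by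
  have := Fermat.Agent.Lib.FF.CharP.isAlgClosed_residueField A
  exact hdesc _ _ (bcK_ofHaupt2_x A M m hM h2)
    (DiscInst.hT3_ofHaupt2 M m hM (residue_eq_zero_of_not_isUnit A) IsLocalRing.residue_surjective
      hN h2)

set_option synthInstance.maxHeartbeats 400000 in
/-- **(T3') over `K0` for the Hauptmodul of level 2.** -/
theorem T3'_ofHaupt2_K0_of {M m : ℕ} [NeZero M] [NeZero m] (hM : M = m * 2)
    {hN : (M : IsLocalRing.ResidueField A) ≠ 0} (hdesc : T3'Descent A M hN)
    (h2 : (2 : IsLocalRing.ResidueField A) ≠ 0) :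
    Lift.T3' (ofHaupt2 (K0.W0 A) (K0.resW0 A) M m hM h2) (K0.resW0_eq_zero_of_not_isUnit A) hN := by
  have := Fermat.Agent.Lib.FF.CharP.isAlgClosed_residueField A
  exact hdesc _ _ (bcK_ofHaupt2_x A M m hM h2)
    (DiscInst.hT3'_ofHaupt2 M m hM (residue_eq_zero_of_not_isUnit A) IsLocalRing.residue_surjective
      hN h2)

set_option synthInstance.maxHeartbeats 400000 in
/-- **(T3) over `K0` for the Hauptmodul of level 3.** -/
theorem T3_ofHaupt3_K0_of {M m : ℕ} [NeZero M] [NeZero m] (hM : M = m * 3)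
    {hN : (M : IsLocalRing.ResidueField A) ≠ 0} (hdesc : T3Descent A M hN)
    (h3 : (3 : IsLocalRing.ResidueField A) ≠ 0) :
    Lift.T3 (ofHaupt3 (K0.W0 A) (K0.resW0 A) M m hM h3) (K0.resW0_eq_zero_of_not_isUnit A) hN := by
  have := Fermat.Agent.Lib.FF.CharP.isAlgClosed_residueField A
  exact hdesc _ _ (bcK_ofHaupt3_x A M m hM h3)
    (DiscInst.hT3_ofHaupt3 M m hM (residue_eq_zero_of_not_isUnit A) IsLocalRing.residue_surjective
      hN h3)

set_option synthInstance.maxHeartbeats 400000 in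
/-- **(T3') over `K0` for the Hauptmodul of level 3.** -/
theorem T3'_ofHaupt3_K0_of {M m : ℕ} [NeZero M] [NeZero m] (hM : M = m * 3)
    {hN : (M : IsLocalRing.ResidueField A) ≠ 0} (hdesc : T3'Descent A M hN)
    (h3 : (3 : IsLocalRing.ResidueField A) ≠ 0) :
    Lift.T3' (ofHaupt3 (K0.W0 A) (K0.resW0 A) M m hM h3) (K0.resW0_eq_zero_of_not_isUnit A) hN := by
  have := Fermat.Agent.Lib.FF.CharP.isAlgClosed_residueField A
  exact hdesc _ _ (bcK_ofHaupt3_x A M m hM h3)
    (DiscInst.hT3'_ofHaupt3 M m hM (residue_eq_zero_of_not_isUnit A) IsLocalRing.residue_surjective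
      hN h3)

end

end Fermat.Agent.CAR.LiftK0.Inst
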