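import Mathlib
import Fermat.Agent.CAR.LiftK0.T3K0
import Fermat.Agent.CAR.LiftK0.T3K0Inst

/-!
# CAR (Lf-5), closed forms: `(T3)`, `(T3')` over `(K0, W0, resW0)` for the three base functions

`T3K0.lean` (descent `T3_K0`, `T3'_K0`) plugged into `T3K0Inst.lean` (helper96: the instances
conditional on `T3Descent`, `T3'Descent`).  No hypothesis is left besides the residue
characteristic conditions of `DiscInst`:

* `T3_ofJ_K0`, `T3'_ofJ_K0` : `x = J(q^N)`, `1728 ≠ 0` in `k`;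
* `T3_ofHaupt2_K0`, `T3'_ofHaupt2_K0` : the Hauptmodul of level 2 at `M = m * 2`, `2 ≠ 0` in `k`;
* `T3_ofHaupt3_K0`, `T3'_ofHaupt3_K0` : the Hauptmodul of level 3 at `M = m * 3`, `3 ≠ 0` in `k`.
-/

set_option autoImplicit false
set_option linter.unusedSectionVars false

namespace Fermat.Agent.CAR.LiftK0.Closed

open AlgebraicCurve ModularCurve HahnSeries
open Fermat.Agent.Lib.Red Fermat.Agent.Lib.Red.BaseFn Fermat.Agent.ESJ.Dict.Bc Fermat.Agent.S28
open Fermat.Agent.Padic Fermat.Agent.CAR.K0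

local notation "Qb" => AlgebraicClosure ℚ

variable {A : ValuationSubring Qb} {q : ℕ} (hq : q.Prime) (hA : A.LiesOverPrime q)

include hq hA

/-- The descent statement `Inst.T3Descent` holds. -/
theorem t3Descent (N : ℕ) [NeZero N] (hN : (N : IsLocalRing.ResidueField A) ≠ 0) :
    Inst.T3Descent A N hN :=
  fun B₀ B hx h => T3_K0 A N hq hA hN B₀ B hx h

/-- The descent statement `Inst.T3'Descent` holds. -/
theorem t3'Descent (N : ℕ) [NeZero N] (hN : (N : IsLocalRing.ResidueField A) ≠ 0) :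
    Inst.T3'Descent A N hN :=
  fun B₀ B hx h => T3'_K0 A N hq hA hN B₀ B hx h

/-- **(T3) over `(K0, W0, resW0)` for `x = J(q^N)`** (residue characteristic `≥ 5`). -/
theorem T3_ofJ_K0 (N : ℕ) [NeZero N] (hN : (N : IsLocalRing.ResidueField A) ≠ 0)
    (h1728 : (1728 : IsLocalRing.ResidueField A) ≠ 0) :
    Lift.T3 (Data.ofJ (W0 A) (resW0 A) N) (resW0_eq_zero_of_not_isUnit A) hN :=
  Inst.T3_ofJ_K0_of (t3Descent hq hA N hN) h1728

/-- **(T3') over `(K0, W0, resW0)` for `x = J(q^N)`** (residue characteristic `≥ 5`). -/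
theorem T3'_ofJ_K0 (N : ℕ) [NeZero N] (hN : (N : IsLocalRing.ResidueField A) ≠ 0)
    (h1728 : (1728 : IsLocalRing.ResidueField A) ≠ 0) :
    Lift.T3' (Data.ofJ (W0 A) (resW0 A) N) (resW0_eq_zero_of_not_isUnit A) hN :=
  Inst.T3'_ofJ_K0_of (t3'Descent hq hA N hN) h1728

/-- **(T3) over `(K0, W0, resW0)` for the Hauptmodul of level 2** at `M = m * 2`. -/
theorem T3_ofHaupt2_K0 {M m : ℕ} [NeZero M] [NeZero m] (hM : M = m * 2)
    (hN : (M : IsLocalRing.ResidueField A) ≠ 0) (h2 : (2 : IsLocalRing.ResidueField A) ≠ 0) :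
    Lift.T3 (ofHaupt2 (W0 A) (resW0 A) M m hM h2) (resW0_eq_zero_of_not_isUnit A) hN :=
  Inst.T3_ofHaupt2_K0_of hM (t3Descent hq hA M hN) h2

/-- **(T3') over `(K0, W0, resW0)` for the Hauptmodul of level 2** at `M = m * 2`. -/
theorem T3'_ofHaupt2_K0 {M m : ℕ} [NeZero M] [NeZero m] (hM : M = m * 2)
    (hN : (M : IsLocalRing.ResidueField A) ≠ 0) (h2 : (2 : IsLocalRing.ResidueField A) ≠ 0) :
    Lift.T3' (ofHaupt2 (W0 A) (resW0 A) M m hM h2) (resW0_eq_zero_of_not_isUnit A) hN :=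
  Inst.T3'_ofHaupt2_K0_of hM (t3'Descent hq hA M hN) h2

/-- **(T3) over `(K0, W0, resW0)` for the Hauptmodul of level 3** at `M = m * 3`. -/
theorem T3_ofHaupt3_K0 {M m : ℕ} [NeZero M] [NeZero m] (hM : M = m * 3)
    (hN : (M : IsLocalRing.ResidueField A) ≠ 0) (h3 : (3 : IsLocalRing.ResidueField A) ≠ 0) :
    Lift.T3 (ofHaupt3 (W0 A) (resW0 A) M m hM h3) (resW0_eq_zero_of_not_isUnit A) hN :=
  Inst.T3_ofHaupt3_K0_of hM (t3Descent hq hA M hN) h3

/-- **(T3') over `(K0, W0, resW0)` for the Hauptmodul of level 3** at `M = m * 3`. -/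
theorem T3'_ofHaupt3_K0 {M m : ℕ} [NeZero M] [NeZero m] (hM : M = m * 3)
    (hN : (M : IsLocalRing.ResidueField A) ≠ 0) (h3 : (3 : IsLocalRing.ResidueField A) ≠ 0) :
    Lift.T3' (ofHaupt3 (W0 A) (resW0 A) M m hM h3) (resW0_eq_zero_of_not_isUnit A) hN :=
  Inst.T3'_ofHaupt3_K0_of hM (t3'Descent hq hA M hN) h3

end Fermat.Agent.CAR.LiftK0.Closed
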