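import Mathlib
import Fermat.Agent.CAR.LiftK0.T3K0Closed
import Fermat.Agent.CAR.Local.Inst.LiftInst

/-!
# CAR (LIFT): the contract fields `lift`, `res` over `(K0, W0, resW0)`, closed forms

Seam `T3K0Closed` (rows 387) → `Local/Inst/LiftInst` (row 388, helper16), for
`B' = integralClosure (W0[x]) (K0·F_{M'})`, `x = J(q^{M'})` (`BaseFn.Data.ofJ`), and any
`red' : B' →+* κ` which is `redF` on `B'`:

* `contract_lift_of_T3`, `contract_res_J` : the two `Contract` fields from `Lift.T3 (ofJ …)`
  (every residue characteristic; for `q ∈ {2, 3}` the hypothesis comes from the Hauptmodul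
  charts);
* `contract_lift_J` : residue characteristic `≥ 5` (`1728 ≠ 0` in `k`), no hypothesis left.
-/

set_option autoImplicit false
set_option linter.unusedSectionVars false
set_option synthInstance.maxHeartbeats 400000
set_option maxHeartbeats 1000000

namespace Fermat.Agent.CAR.LiftK0.Closed

open AlgebraicCurve ModularCurve HahnSeries
open Fermat.Agent.Lib.Red Fermat.Agent.Lib.Red.BaseFn Fermat.Agent.CAR.K0
  Fermat.Agent.CAR.Local.Inst Fermat.Agent.CAR.Local.Inst.LiftInst

local notation "Qb" => AlgebraicClosure ℚ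

variable {A : ValuationSubring Qb} {q : ℕ} (hq : q.Prime) (hA : A.LiesOverPrime q)
  (M' : ℕ) [NeZero M'] (hM' : (M' : IsLocalRing.ResidueField A) ≠ 0)
  (red' : ↥(integralClosure ↥((Data.ofJ (W0 A) (resW0 A) M').AX)
      ↥(laurentBaseChange ↥(K0 A) (modularFunctionFieldFull M'))) →+*
    ↥(modularFunctionFieldFullC (IsLocalRing.ResidueField A) M'))
  (hred' : ∀ b : ↥(integralClosure ↥((Data.ofJ (W0 A) (resW0 A) M').AX)
      ↥(laurentBaseChange ↥(K0 A) (modularFunctionFieldFull M'))),
    red' b = redF (W0 A) (resW0 A) M' (resW0_eq_zero_of_not_isUnit A) hM'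
      ⟨b, (Data.ofJ (W0 A) (resW0 A) M').mem_Ow_of_isIntegral_AX hM' b.2⟩)

include hq hA hred'

/-- **Contract field `lift`** for `B' = integralClosure (W0[J(q^{M'})])`, from `(T3)` over
`(K0, W0, resW0)`. -/
theorem contract_lift_of_T3
    (hT3 : Lift.T3 (Data.ofJ (W0 A) (resW0 A) M') (resW0_eq_zero_of_not_isUnit A) hM') :
    ∀ Vs : ValuationSubring ↥(modularFunctionFieldFullC (IsLocalRing.ResidueField A) M'),
      IsFinPlace red' Vs →
        ∀ c ∈ Vs, ∃ a b : ↥(integralClosure ↥((Data.ofJ (W0 A) (resW0 A) M').AX)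
            ↥(laurentBaseChange ↥(K0 A) (modularFunctionFieldFull M'))),
          red' b ∉ Vs.nonunits ∧ red' a = c * red' b :=
  contract_lift_K0 hq hA (redOnto_of_apply (Data.ofJ (W0 A) (resW0 A) M') _ hM' red' hred')
    (liftFrac_K0_of_T3 hq hA hT3)

/-- **Contract field `res`** for `B' = integralClosure (W0[J(q^{M'})])` (no hypothesis). -/
theorem contract_res_J :
    ∀ Vs : ValuationSubring ↥(modularFunctionFieldFullC (IsLocalRing.ResidueField A) M'),
      IsFinPlace red' Vs →
        ∀ v ∈ Vs, ∃ a : ↥(integralClosure ↥((Data.ofJ (W0 A) (resW0 A) M').AX)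
            ↥(laurentBaseChange ↥(K0 A) (modularFunctionFieldFull M'))),
          red' a - v ∈ Vs.nonunits :=
  contract_res_K0 hq hA (redOnto_of_apply (Data.ofJ (W0 A) (resW0 A) M') _ hM' red' hred')

/-- **Contract field `lift`**, residue characteristic `≥ 5`: no hypothesis left. -/
theorem contract_lift_J (h1728 : (1728 : IsLocalRing.ResidueField A) ≠ 0) :
    ∀ Vs : ValuationSubring ↥(modularFunctionFieldFullC (IsLocalRing.ResidueField A) M'),
      IsFinPlace red' Vs →
        ∀ c ∈ Vs, ∃ a b : ↥(integralClosure ↥((Data.ofJ (W0 A) (resW0 A) M').AX)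
            ↥(laurentBaseChange ↥(K0 A) (modularFunctionFieldFull M'))),
          red' b ∉ Vs.nonunits ∧ red' a = c * red' b :=
  contract_lift_of_T3 hq hA M' hM' red' hred' (T3_ofJ_K0 hq hA M' hM' h1728)

end Fermat.Agent.CAR.LiftK0.Closed
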