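import Mathlib
import Fermat.Agent.ESJ.Dict.Bc

/-!
# CAR / LIFT over `K0` (Lf-5), part 2: the coefficients of a function lie in a finite extension

`L/K` algebraic (`K : IntermediateField ℚ L`).  Every element of `L·F₀ ⊆ L((q))` has all its
coefficients in one finite extension `K1` of `K` inside `L` (`exists_finite_coeff_field`).
-/

set_option autoImplicit false
set_option linter.unusedSectionVars false

namespace Fermat.Agent.CAR.LiftK0

open HahnSeries ModularCurve Fermat.Agent.ESJ.Dict.Bc

variable {L : Type*} [Field L] [Algebra ℚ L]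

/-- A series with coefficients in a subfield `K1` has its inverse with coefficients in `K1`. -/
theorem coeff_inv_mem {K : Type*} [Field K] [Algebra K L] (K1 : IntermediateField K L)
    {x : LaurentSeries L} (hx : ∀ n, x.coeff n ∈ K1) (n : ℤ) : (x⁻¹).coeff n ∈ K1 := by
  obtain ⟨y, hy⟩ := exists_coeffMap_eq_of_coeff_mem_range (algebraMap K1 L) x
    (fun k => ⟨⟨x.coeff k, hx k⟩, rfl⟩)
  have h1 : x⁻¹ = coeffMap (algebraMap K1 L) y⁻¹ := by
    rw [map_inv₀, hy]
  rw [h1, coeffMap_coeff]
  exact (y⁻¹.coeff n).2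

/-- **Finite coefficient field.** -/
theorem exists_finite_coeff_field (K : IntermediateField ℚ L) [Algebra.IsAlgebraic K L]
    (F₀ : IntermediateField ℚ (LaurentSeries ℚ)) {y : LaurentSeries L}
    (hy : y ∈ laurentBaseChange L F₀) :
    ∃ K1 : IntermediateField K L, FiniteDimensional K K1 ∧ ∀ n, y.coeff n ∈ K1 := by
  classical
  rw [mem_laurentBaseChange_iff] at hy
  induction hy using Subfield.closure_induction with
  | mem x hx =>
    rcases hx with ⟨a, rfl⟩ | ⟨z, -, rfl⟩
    · refine ⟨IntermediateField.adjoin K {a},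
        IntermediateField.adjoin.finiteDimensional (Algebra.IsAlgebraic.isAlgebraic a).isIntegral,
        fun n => ?_⟩
      rw [algebraMap_laurentSeries_eq_single, HahnSeries.coeff_single]
      split_ifs
      · exact IntermediateField.mem_adjoin_simple_self K a
      · exact zero_mem _
    · refine ⟨IntermediateField.adjoin K {(0 : L)},
        IntermediateField.adjoin.finiteDimensional
          (Algebra.IsAlgebraic.isAlgebraic (0 : L)).isIntegral, fun n => ?_⟩
      rw [coeffEmb_coeff, IsScalarTower.algebraMap_apply ℚ K L]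
      exact IntermediateField.algebraMap_mem _ _
  | one =>
    refine ⟨IntermediateField.adjoin K {(0 : L)},
      IntermediateField.adjoin.finiteDimensional
        (Algebra.IsAlgebraic.isAlgebraic (0 : L)).isIntegral, fun n => ?_⟩
    rw [HahnSeries.coeff_one]
    split_ifs
    · exact one_mem _
    · exact zero_mem _
  | add x y _ _ hx hy =>
    obtain ⟨K1, h1, hx⟩ := hx
    obtain ⟨K2, h2, hy⟩ := hy
    refine ⟨K1 ⊔ K2, IntermediateField.finiteDimensional_sup K1 K2, fun n => ?_⟩
    rw [HahnSeries.coeff_add]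
    exact add_mem ((le_sup_left : K1 ≤ K1 ⊔ K2) (hx n)) ((le_sup_right : K2 ≤ K1 ⊔ K2) (hy n))
  | neg x _ hx =>
    obtain ⟨K1, h1, hx⟩ := hx
    refine ⟨K1, h1, fun n => ?_⟩
    rw [HahnSeries.coeff_neg]
    exact neg_mem (hx n)
  | inv x _ hx =>
    obtain ⟨K1, h1, hx⟩ := hx
    exact ⟨K1, h1, coeff_inv_mem K1 hx⟩
  | mul x y _ _ hx hy =>
    obtain ⟨K1, h1, hx⟩ := hx
    obtain ⟨K2, h2, hy⟩ := hy
    refine ⟨K1 ⊔ K2, IntermediateField.finiteDimensional_sup K1 K2, fun n => ?_⟩
    rw [HahnSeries.coeff_mul]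
    exact sum_mem fun ij _ => mul_mem ((le_sup_left : K1 ≤ K1 ⊔ K2) (hx ij.1))
      ((le_sup_right : K2 ≤ K1 ⊔ K2) (hy ij.2))

end Fermat.Agent.CAR.LiftK0
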