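import Mathlib
import Fermat.Agent.CAR.K0
import Fermat.Agent.CAR.K0.Hens
import Fermat.Agent.CAR.K0.Zeta
import Fermat.Agent.PT.G.DecompBasic
import Fermat.Agent.PT.G.KumDVR

/-!
# CAR / LIFT over `K0` (Lf-5), part 1: finite extensions of the inertia field are totally ramified

`A` a valuation subring of `ℚ̄` over the prime `q`, `K0 = ℚ̄^I` its inertia field.  For a finite
extension `K1` of `K0` inside `ℚ̄` (`exists_totRam`): there are `e ≥ 1`, `ϖ ∈ K1` with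
`v(ϖ)^e = v(q)`, such that `K1 = ⊕_{i<e} K0·ϖ^i`, and `e` elements of the inertia group moving
`ϖ` to `e` distinct conjugates.

The proof is elementary: norms give a uniformiser of `A ∩ K1` (`exists_uniformizer`); the
Vandermonde matrix of the conjugates of a primitive element bounds the denominators of `A ∩ K1`
(`exists_bounded`); successive approximation (the residue field of `K0` is that of `A`) and
Nakayama give the power basis.
-/

set_option autoImplicit false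
set_option linter.style.haveILetI false
set_option linter.unusedSectionVars false

namespace Fermat.Agent.CAR.LiftK0

open Polynomial Fermat.Agent.CAR.K0

local notation "Qb" => AlgebraicClosure ℚ
local notation "GQ" => (AlgebraicClosure ℚ ≃ₐ[ℚ] AlgebraicClosure ℚ)

/-! ### Linear algebra: inverting a Vandermonde matrix -/

/-- Distinct nodes `t j`: there are coefficients `c i j` with `∑_j c i j * t j ^ l = δ_{il}`. -/
theorem exists_vandermonde_inv {K : Type*} [Field K] {n : ℕ} (t : Fin n → K)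
    (ht : Function.Injective t) :
    ∃ c : Fin n → Fin n → K, ∀ i l : Fin n,
      ∑ j, c i j * t j ^ (l : ℕ) = if i = l then 1 else 0 := by
  have hdet : (Matrix.vandermonde t).det ≠ 0 := Matrix.det_vandermonde_ne_zero_iff.mpr ht
  have h := Matrix.nonsing_inv_mul (Matrix.vandermonde t) (isUnit_iff_ne_zero.mpr hdet)
  refine ⟨fun i j => (Matrix.vandermonde t)⁻¹ i j, fun i l => ?_⟩
  have h2 := congrFun (congrFun h i) l
  rw [Matrix.mul_apply, Matrix.one_apply] at h2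
  simpa [Matrix.vandermonde_apply] using h2

/-- Coordinates from conjugates: if `s j = ∑_l a l * t j ^ l` then `a i = ∑_j c i j * s j`. -/
theorem sum_conj_eq_coord {K : Type*} [Field K] {n : ℕ} (t : Fin n → K) (c : Fin n → Fin n → K)
    (hc : ∀ i l : Fin n, ∑ j, c i j * t j ^ (l : ℕ) = if i = l then 1 else 0)
    (a : Fin n → K) (s : Fin n → K) (hs : ∀ j, s j = ∑ l, a l * t j ^ (l : ℕ)) (i : Fin n) :
    ∑ j, c i j * s j = a i := by
  calc ∑ j, c i j * s j = ∑ j, ∑ l, a l * (c i j * t j ^ (l : ℕ)) := by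
        refine Finset.sum_congr rfl fun j _ => ?_
        rw [hs j, Finset.mul_sum]
        exact Finset.sum_congr rfl fun l _ => by ring
    _ = ∑ l, a l * ∑ j, c i j * t j ^ (l : ℕ) := by
        rw [Finset.sum_comm]
        exact Finset.sum_congr rfl fun l _ => by rw [Finset.mul_sum]
    _ = a i := by
        simp_rw [hc]
        simp

/-! ### The inertia group: valuations and conjugates -/

/-- The inertia group preserves the valuation. -/
theorem valuation_inertia_apply (A : ValuationSubring Qb) {σ : GQ}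
    (hσ : σ ∈ A.inertiaSubgroupIn ℚ) (x : Qb) : A.valuation (σ x) = A.valuation x :=
  Fermat.Agent.PT.G.valuation_apply_eq_of_mem_decomp (inertiaSubgroupIn_le_decomp A hσ) x

/-- The inertia group preserves `A`. -/
theorem inertia_apply_mem (A : ValuationSubring Qb) {σ : GQ}
    (hσ : σ ∈ A.inertiaSubgroupIn ℚ) {x : Qb} (hx : x ∈ A) : σ x ∈ A := by
  rw [← A.valuation_le_one_iff, valuation_inertia_apply A hσ]
  exact (A.valuation_le_one_iff x).mpr hx

/-- The inertia group fixes `K0`. -/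
theorem inertia_apply_K0 (A : ValuationSubring Qb) {σ : GQ}
    (hσ : σ ∈ A.inertiaSubgroupIn ℚ) {x : Qb} (hx : x ∈ K0 A) : σ x = x :=
  (mem_inertia_iff_forall_K0 A σ).mp hσ x hx

/-- `m` distinct conjugates of `θ` over `K0`, realised by elements of the inertia group, as soon
as `m ≤ [K0(θ) : K0]`. -/
theorem exists_conjugates (A : ValuationSubring Qb) (θ : Qb) (m : ℕ)
    (hm : m ≤ (minpoly (K0 A) θ).natDegree) :
    ∃ σ : Fin m → GQ, (∀ j, σ j ∈ A.inertiaSubgroupIn ℚ) ∧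
      Function.Injective (fun j => σ j θ) := by
  haveI : Algebra.IsAlgebraic (K0 A) Qb := isAlgebraic_K0 A
  haveI : Normal (K0 A) Qb := normal_K0 A
  have halg : IsAlgebraic (K0 A) θ := Algebra.IsAlgebraic.isAlgebraic θ
  have hint : IsIntegral (K0 A) θ := halg.isIntegral
  have hsep : (minpoly (K0 A) θ).Separable := (minpoly.irreducible hint).separable
  have hsplit : ((minpoly (K0 A) θ).map (algebraMap (K0 A) Qb)).Splits := IsAlgClosed.splits _
  have hcard := Polynomial.card_rootSet_eq_natDegree (K := Qb) hsep hsplit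
  have hle : Fintype.card (Fin m) ≤ Fintype.card ((minpoly (K0 A) θ).rootSet Qb) := by
    rw [Fintype.card_fin, hcard]
    exact hm
  obtain ⟨f⟩ := Function.Embedding.nonempty_of_card_le hle
  have key : ∀ j : Fin m, ∃ σ : GQ, σ ∈ A.inertiaSubgroupIn ℚ ∧ σ θ = (f j : Qb) := by
    intro j
    have hroot : aeval (f j : Qb) (minpoly (K0 A) θ) = 0 :=
      (Polynomial.mem_rootSet.mp (f j).2).2
    obtain ⟨s, hs⟩ := minpoly.exists_algEquiv_of_root' halg hroot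
    exact ⟨s.restrictScalars ℚ, restrictScalars_mem_inertia A s, hs⟩
  choose σ hσ hσθ using key
  refine ⟨σ, hσ, fun i j hij => ?_⟩
  have h2 : (f i : Qb) = (f j : Qb) := by
    rw [← hσθ i, ← hσθ j]
    exact hij
  exact f.injective (Subtype.ext h2)

/-! ### Archimedean bounds -/

section Arch

variable {q : ℕ} (hq : q.Prime) {A : ValuationSubring Qb} (hA : A.LiesOverPrime q)

include hq hA

theorem valuation_q_lt_one : A.valuation (q : Qb) < 1 := A.mem_nonunits_iff.mp hA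

theorem valuation_q_ne_zero : A.valuation (q : Qb) ≠ 0 :=
  (Valuation.ne_zero_iff _).mpr (Nat.cast_ne_zero.mpr hq.ne_zero)

theorem q_mem : (q : Qb) ∈ A := (A.valuation_le_one_iff _).mp (valuation_q_lt_one hq hA).le

/-- Every element of `ℚ̄` becomes `A`-integral after multiplication by a power of `q`. -/
theorem exists_pow_mul_mem (c : Qb) : ∃ t : ℕ, (q : Qb) ^ t * c ∈ A := by
  rcases eq_or_ne c 0 with rfl | hc
  · exact ⟨0, by rw [mul_zero]; exact A.zero_mem⟩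
  obtain ⟨t, ht⟩ := Fermat.Agent.PT.Kummer.exists_pow_valuation_lt hq hA (inv_ne_zero hc)
  refine ⟨t, ?_⟩
  rw [← A.valuation_le_one_iff, map_mul]
  rw [map_inv₀] at ht
  have hc0 : A.valuation c ≠ 0 := (Valuation.ne_zero_iff _).mpr hc
  calc A.valuation ((q : Qb) ^ t) * A.valuation c
      ≤ (A.valuation c)⁻¹ * A.valuation c := mul_le_mul_left ht.le _
    _ = 1 := inv_mul_cancel₀ hc0

/-- A finite family becomes `A`-integral after multiplication by one power of `q`. -/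
theorem exists_pow_mul_mem_finset {ι : Type*} (s : Finset ι) (c : ι → Qb) :
    ∃ t : ℕ, ∀ i ∈ s, (q : Qb) ^ t * c i ∈ A := by
  classical
  induction s using Finset.induction_on with
  | empty => exact ⟨0, fun i hi => absurd hi (Finset.notMem_empty i)⟩
  | insert a s _ ih =>
    obtain ⟨t, ht⟩ := ih
    obtain ⟨t', ht'⟩ := exists_pow_mul_mem hq hA (c a)
    refine ⟨t + t', fun i hi => ?_⟩
    rcases Finset.mem_insert.mp hi with rfl | hi
    · rw [pow_add, mul_assoc]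
      exact A.mul_mem _ _ (A.pow_mem (q_mem hq hA) t) ht'
    · rw [pow_add, mul_comm ((q : Qb) ^ t), mul_assoc]
      exact A.mul_mem _ _ (A.pow_mem (q_mem hq hA) t') (ht i hi)

end Arch

/-! ### A uniformiser of a finite extension of `K0` -/

section Unif

variable {q : ℕ} (hq : q.Prime) {A : ValuationSubring Qb} (hA : A.LiesOverPrime q)
  (K1 : IntermediateField (K0 A) Qb) [FiniteDimensional (K0 A) K1]

include hq hA

/-- Norms: the `n'`-th power of the valuation of a nonzero element of `K1` is an integral power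
of `v(q)`. -/
theorem exists_pow_valuation_eq_zpow :
    ∃ n' : ℕ, 0 < n' ∧ ∀ x : Qb, x ∈ K1 → x ≠ 0 →
      ∃ m : ℤ, A.valuation x ^ n' = A.valuation (q : Qb) ^ m := by
  classical
  haveI : Algebra.IsSeparable (K0 A) K1 := inferInstance
  refine ⟨Fintype.card (K1 →ₐ[K0 A] Qb), Fintype.card_pos_iff.mpr ⟨K1.val⟩, fun x hx hx0 => ?_⟩
  have hnorm := Algebra.norm_eq_prod_embeddings (K0 A) Qb (⟨x, hx⟩ : K1)
  have hv : ∀ σ : K1 →ₐ[K0 A] Qb, A.valuation (σ ⟨x, hx⟩) = A.valuation x := by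
    intro σ
    obtain ⟨τ, hτ, h⟩ := exists_mem_inertia_of_algHom' A K1 σ
    rw [← h ⟨x, hx⟩]
    exact valuation_inertia_apply A hτ x
  have hne : Algebra.norm (K0 A) (⟨x, hx⟩ : K1) ≠ 0 := by
    intro h0
    rw [h0, map_zero] at hnorm
    obtain ⟨σ, -, hσ⟩ := Finset.prod_eq_zero_iff.mp hnorm.symm
    have h2 : (⟨x, hx⟩ : K1) = 0 := (map_eq_zero σ).mp hσ
    exact hx0 (congrArg Subtype.val h2)
  obtain ⟨m, hm⟩ := exists_zpow_valuation_eq hq hA _ hne
  refine ⟨m, ?_⟩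
  have h1 : A.valuation (algebraMap (K0 A) Qb (Algebra.norm (K0 A) (⟨x, hx⟩ : K1)))
      = A.valuation x ^ Fintype.card (K1 →ₐ[K0 A] Qb) := by
    rw [hnorm, map_prod]
    simp [hv, Finset.prod_const, Finset.card_univ]
  rw [← h1, ← map_zpow₀]
  exact hm

/-- **A uniformiser of `A ∩ K1`.** -/
theorem exists_uniformizer :
    ∃ ϖ : Qb, ϖ ∈ K1 ∧ ϖ ≠ 0 ∧ A.valuation ϖ < 1 ∧
      ∀ x : Qb, x ∈ K1 → x ≠ 0 → A.valuation x < 1 →
        ∃ j : ℕ, 0 < j ∧ A.valuation x = A.valuation ϖ ^ j := by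
  classical
  obtain ⟨n', hn', H⟩ := exists_pow_valuation_eq_zpow hq hA K1
  have hvq1 := valuation_q_lt_one hq hA
  have hvq0 := valuation_q_ne_zero hq hA
  have hq0 : (q : Qb) ≠ 0 := Nat.cast_ne_zero.mpr hq.ne_zero
  have hex : ∃ m : ℕ, 0 < m ∧ ∃ x : Qb, x ∈ K1 ∧ x ≠ 0 ∧
      A.valuation x ^ n' = A.valuation (q : Qb) ^ m :=
    ⟨n', hn', q, natCast_mem K1 q, hq0, rfl⟩
  obtain ⟨hd, ϖ, hϖK, hϖ0, hϖ⟩ := Nat.find_spec hex
  set d := Nat.find hex with hd_def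
  have hϖ1 : A.valuation ϖ < 1 := by
    by_contra hcon
    have h1 : 1 ≤ A.valuation ϖ ^ n' := one_le_pow₀ (not_lt.mp hcon)
    rw [hϖ] at h1
    exact absurd h1 (not_le.mpr (pow_lt_one₀ zero_le hvq1 hd.ne'))
  refine ⟨ϖ, hϖK, hϖ0, hϖ1, fun x hx hx0 hx1 => ?_⟩
  obtain ⟨m, hm⟩ := H x hx hx0
  have hxn : A.valuation x ^ n' < 1 := pow_lt_one₀ zero_le hx1 hn'.ne'
  -- `m > 0`
  have hm0 : 0 < m := by
    by_contra hcon
    obtain ⟨k, rfl⟩ : ∃ k : ℕ, m = -(k : ℤ) := ⟨(-m).toNat, by omega⟩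
    rw [hm, zpow_neg, zpow_natCast] at hxn
    have h2 : A.valuation (q : Qb) ^ k ≤ 1 := pow_le_one₀ zero_le hvq1.le
    have h3 : (1 : A.ValueGroup) ≤ (A.valuation (q : Qb) ^ k)⁻¹ :=
      (one_le_inv₀ (zero_lt_iff.mpr (pow_ne_zero k hvq0))).mpr h2
    exact absurd h3 (not_le.mpr hxn)
  obtain ⟨m', rfl⟩ := Int.eq_ofNat_of_zero_le hm0.le
  rw [zpow_natCast] at hm
  have hm'0 : 0 < m' := by exact_mod_cast hm0
  -- Euclidean division of `m'` by `d`
  have hdiv := Nat.div_add_mod m' d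
  set j := m' / d with hj
  set r := m' % d with hr
  have hrd : r < d := Nat.mod_lt _ hd
  have hϖj0 : ϖ ^ j ≠ 0 := pow_ne_zero j hϖ0
  have hr0 : r = 0 := by
    by_contra hr0
    have hx' : A.valuation (x / ϖ ^ j) ^ n' = A.valuation (q : Qb) ^ r := by
      rw [map_div₀, div_pow, map_pow, ← pow_mul, mul_comm j n', pow_mul, hϖ, hm, ← hdiv,
        pow_add, pow_mul]
      rw [mul_div_assoc, mul_comm, div_mul_cancel₀]
      exact pow_ne_zero _ (pow_ne_zero _ hvq0)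
    have hmin := Nat.find_min' hex (m := r)
      ⟨Nat.pos_of_ne_zero hr0, x / ϖ ^ j, div_mem hx (pow_mem hϖK j),
        div_ne_zero hx0 hϖj0, hx'⟩
    exact absurd hmin (not_le.mpr hrd)
  rw [hr0, add_zero] at hdiv
  have hj0 : 0 < j := by
    rcases Nat.eq_zero_or_pos j with h | h
    · rw [h, mul_zero] at hdiv
      omega
    · exact h
  refine ⟨j, hj0, ?_⟩
  have h4 : A.valuation x ^ n' = (A.valuation ϖ ^ j) ^ n' := by
    rw [hm, ← hdiv, pow_mul, ← hϖ, ← pow_mul, ← pow_mul, mul_comm]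
  exact (pow_left_inj₀ zero_le zero_le hn'.ne').mp h4

/-- **Bounded denominators**: `A ∩ K1` is contained in `q^{-R}` times a finitely generated
`A ∩ K0`-module spanned by elements of `A ∩ K1`. -/
theorem exists_bounded :
    ∃ (n : ℕ) (b : Fin n → Qb) (R : ℕ), (∀ l, b l ∈ K1 ∧ b l ∈ A) ∧
      ∀ x : Qb, x ∈ K1 → x ∈ A → ∃ w : Fin n → Qb, (∀ l, w l ∈ K0 A ∧ w l ∈ A) ∧
        (q : Qb) ^ R * x = ∑ l, w l * b l := by
  classical
  haveI : Algebra.IsSeparable (K0 A) K1 := inferInstance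
  let pb := Field.powerBasisOfFiniteOfSeparable (K0 A) K1
  set θ : Qb := (pb.gen : Qb) with hθ
  have hθK : θ ∈ K1 := pb.gen.2
  -- the conjugates of `θ`
  have hmin : minpoly (K0 A) θ = minpoly (K0 A) pb.gen :=
    minpoly.algebraMap_eq (algebraMap K1 Qb).injective pb.gen
  obtain ⟨σ, hσ, hinj⟩ := exists_conjugates A θ pb.dim (by rw [hmin, pb.natDegree_minpoly])
  obtain ⟨c, hc⟩ := exists_vandermonde_inv (fun j => σ j θ) hinj
  -- bounds
  obtain ⟨r, hr⟩ := exists_pow_mul_mem_finset hq hA (Finset.univ : Finset (Fin pb.dim × Fin pb.dim))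
    (fun ij => c ij.1 ij.2)
  obtain ⟨r', hr'⟩ := exists_pow_mul_mem_finset hq hA (Finset.univ : Finset (Fin pb.dim))
    (fun l => θ ^ (l : ℕ))
  refine ⟨pb.dim, fun l => (q : Qb) ^ r' * θ ^ (l : ℕ), r + r',
    fun l => ⟨mul_mem (pow_mem (natCast_mem K1 q) r') (pow_mem hθK _), hr' l (Finset.mem_univ l)⟩,
    fun x hx hxA => ?_⟩
  -- coordinates of `x` in the power basis
  obtain ⟨f, hf, hxf⟩ := pb.exists_eq_aeval (⟨x, hx⟩ : K1)
  have hx1 : x = aeval θ f := by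
    have h1 := congrArg (fun y : K1 => (y : Qb)) hxf
    simp only at h1
    rw [h1]
    exact (Polynomial.aeval_algHom_apply K1.val pb.gen f).symm
  have hx2 : x = ∑ l : Fin pb.dim, ((f.coeff l : K0 A) : Qb) * θ ^ (l : ℕ) := by
    rw [hx1, Polynomial.aeval_eq_sum_range' hf θ,
      ← Fin.sum_univ_eq_sum_range (fun i => f.coeff i • θ ^ i) pb.dim]
    exact Finset.sum_congr rfl fun l _ => Algebra.smul_def _ _
  have hs : ∀ j, σ j x = ∑ l : Fin pb.dim, ((f.coeff l : K0 A) : Qb) * (σ j θ) ^ (l : ℕ) := by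
    intro j
    conv_lhs => rw [hx2]
    rw [map_sum]
    refine Finset.sum_congr rfl fun l _ => ?_
    rw [map_mul, map_pow, inertia_apply_K0 A (hσ j) (f.coeff l).2]
  have ha : ∀ i, ∑ j, c i j * σ j x = ((f.coeff i : K0 A) : Qb) :=
    sum_conj_eq_coord (fun j => σ j θ) c hc (fun l => ((f.coeff l : K0 A) : Qb))
      (fun j => σ j x) hs
  refine ⟨fun l => (q : Qb) ^ r * ((f.coeff l : K0 A) : Qb),
    fun l => ⟨mul_mem (pow_mem (natCast_mem (K0 A) q) r) (f.coeff l).2, ?_⟩, ?_⟩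
  · show (q : Qb) ^ r * ((f.coeff l : K0 A) : Qb) ∈ A
    rw [← ha l, Finset.mul_sum]
    refine A.sum_mem fun j _ => ?_
    rw [← mul_assoc]
    exact A.mul_mem _ _ (hr (l, j) (Finset.mem_univ _)) (inertia_apply_mem A (hσ j) hxA)
  · conv_lhs => rw [hx2]
    rw [Finset.mul_sum]
    refine Finset.sum_congr rfl fun l _ => ?_
    rw [pow_add]
    ring

end Unif

/-! ### The power basis -/

/-- `A ∩ K0` as a subring of `ℚ̄`. -/
def WQ (A : ValuationSubring Qb) : Subring Qb where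
  carrier := {x | x ∈ A ∧ x ∈ K0 A}
  mul_mem' := fun ha hb => ⟨mul_mem ha.1 hb.1, mul_mem ha.2 hb.2⟩
  one_mem' := ⟨one_mem _, one_mem _⟩
  add_mem' := fun ha hb => ⟨add_mem ha.1 hb.1, add_mem ha.2 hb.2⟩
  zero_mem' := ⟨zero_mem _, zero_mem _⟩
  neg_mem' := fun ha => ⟨neg_mem ha.1, neg_mem ha.2⟩

theorem mem_WQ {A : ValuationSubring Qb} {x : Qb} : x ∈ WQ A ↔ x ∈ A ∧ x ∈ K0 A := Iff.rfl

section Basis

variable {q : ℕ} (hq : q.Prime) {A : ValuationSubring Qb} (hA : A.LiesOverPrime q)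
  (K1 : IntermediateField (K0 A) Qb)

include hq hA

omit hq hA in
/-- `K0 ⊆ K1`. -/
theorem K0_le' (K1 : IntermediateField (K0 A) Qb) {w : Qb} (hw : w ∈ K0 A) : w ∈ K1 :=
  K1.algebraMap_mem ⟨w, hw⟩

/-- Successive approximation, `ϖ`-adic step. -/
theorem approx_unif {ϖ : Qb} (hϖK : ϖ ∈ K1) (hϖ0 : ϖ ≠ 0)
    (hUP : ∀ x : Qb, x ∈ K1 → x ≠ 0 → A.valuation x < 1 → A.valuation x ≤ A.valuation ϖ)
    (e : ℕ) (i : ℕ) (hi : i ≤ e) (x : Qb) (hx : x ∈ K1) (hxA : x ∈ A) :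
    ∃ m ∈ Submodule.span (WQ A) (Set.range fun l : Fin e => ϖ ^ (l : ℕ)),
      ∃ z : Qb, z ∈ K1 ∧ z ∈ A ∧ x = m + ϖ ^ i * z := by
  induction i with
  | zero => exact ⟨0, zero_mem _, x, hx, hxA, by rw [pow_zero, one_mul, zero_add]⟩
  | succ i ih =>
    obtain ⟨m, hm, z, hzK, hzA, hxz⟩ := ih (Nat.le_of_succ_le hi)
    obtain ⟨w, hwK, hwA, hzw⟩ :=
      exists_mem_inertiaField_valuation_sub_lt_one hq A hA hzA
    have hz'K : (z - w) / ϖ ∈ K1 := div_mem (sub_mem hzK (K0_le' K1 hwK)) hϖK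
    have hz'A : (z - w) / ϖ ∈ A := by
      rcases eq_or_ne (z - w) 0 with h0 | h0
      · rw [h0, zero_div]
        exact A.zero_mem
      · rw [← A.valuation_le_one_iff, map_div₀]
        have h1 := hUP (z - w) (sub_mem hzK (K0_le' K1 hwK)) h0 hzw
        exact div_le_one_of_le₀ h1 zero_le
    refine ⟨m + (⟨w, hwA, hwK⟩ : WQ A) • ϖ ^ i, add_mem hm
      (Submodule.smul_mem _ _ (Submodule.subset_span ⟨⟨i, hi⟩, rfl⟩)), (z - w) / ϖ, hz'K, hz'A, ?_⟩
    rw [hxz, Subring.smul_def]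
    show m + ϖ ^ i * z = m + w * ϖ ^ i + ϖ ^ (i + 1) * ((z - w) / ϖ)
    field_simp
    ring

/-- Successive approximation, `q`-adic step. -/
theorem approx_q {ϖ : Qb} (hϖK : ϖ ∈ K1) (hϖ0 : ϖ ≠ 0)
    (hUP : ∀ x : Qb, x ∈ K1 → x ≠ 0 → A.valuation x < 1 → A.valuation x ≤ A.valuation ϖ)
    (e : ℕ) (he : A.valuation ϖ ^ e = A.valuation (q : Qb)) (t : ℕ) (x : Qb) (hx : x ∈ K1)
    (hxA : x ∈ A) :
    ∃ m ∈ Submodule.span (WQ A) (Set.range fun l : Fin e => ϖ ^ (l : ℕ)),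
      ∃ z : Qb, z ∈ K1 ∧ z ∈ A ∧ x = m + (q : Qb) ^ t * z := by
  have hq0 : (q : Qb) ≠ 0 := Nat.cast_ne_zero.mpr hq.ne_zero
  have hqW : (q : Qb) ∈ WQ A := ⟨q_mem hq hA, natCast_mem (K0 A) q⟩
  induction t generalizing x with
  | zero => exact ⟨0, zero_mem _, x, hx, hxA, by rw [pow_zero, one_mul, zero_add]⟩
  | succ t ih =>
    obtain ⟨m, hm, z, hzK, hzA, hxz⟩ := ih x hx hxA
    obtain ⟨m', hm', z', hz'K, hz'A, hzz'⟩ := approx_unif hq hA K1 hϖK hϖ0 hUP e e le_rfl z hzK hzA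
    have huK : ϖ ^ e / q ∈ K1 := div_mem (pow_mem hϖK e) (natCast_mem K1 q)
    have huA : ϖ ^ e / q ∈ A := by
      rw [← A.valuation_le_one_iff, map_div₀, map_pow, he,
        div_self (valuation_q_ne_zero hq hA)]
    refine ⟨m + (⟨(q : Qb) ^ t, pow_mem hqW t⟩ : WQ A) • m', add_mem hm
      (Submodule.smul_mem _ _ hm'), ϖ ^ e / q * z', mul_mem huK hz'K, A.mul_mem _ _ huA hz'A, ?_⟩
    rw [hxz, hzz', Subring.smul_def]
    show m + (q : Qb) ^ t * (m' + ϖ ^ e * z') = m + (q : Qb) ^ t * m' +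
      (q : Qb) ^ (t + 1) * (ϖ ^ e / q * z')
    field_simp
    ring

/-- `q` lies in the Jacobson radical of `A ∩ K0`. -/
theorem span_q_le_jacobson :
    Ideal.span {(⟨(q : Qb), q_mem hq hA, natCast_mem (K0 A) q⟩ : WQ A)} ≤
      Ideal.jacobson (⊥ : Ideal (WQ A)) := by
  rw [Ideal.span_singleton_le_iff_mem, Ideal.mem_jacobson_bot]
  intro y
  have hv : A.valuation (1 + (q : Qb) * (y : Qb)) = 1 := by
    refine A.valuation.map_one_add_of_lt ?_
    rw [map_mul]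
    calc A.valuation (q : Qb) * A.valuation (y : Qb) ≤ A.valuation (q : Qb) * 1 :=
          mul_le_mul_right ((A.valuation_le_one_iff _).mpr y.2.1) _
      _ < 1 := by rw [mul_one]; exact valuation_q_lt_one hq hA
  have hu0 : (1 + (q : Qb) * (y : Qb)) ≠ 0 := by
    intro h0
    rw [h0, map_zero] at hv
    exact zero_ne_one hv
  have hinvA : (1 + (q : Qb) * (y : Qb))⁻¹ ∈ A := by
    rw [← A.valuation_le_one_iff, map_inv₀, hv, inv_one]
  have hinvK : (1 + (q : Qb) * (y : Qb))⁻¹ ∈ K0 A :=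
    inv_mem (add_mem (one_mem _) (mul_mem (natCast_mem (K0 A) q) y.2.2))
  refine IsUnit.of_mul_eq_one (⟨_, hinvA, hinvK⟩ : WQ A) (Subtype.ext ?_)
  show ((q : Qb) * (y : Qb) + 1) * (1 + (q : Qb) * (y : Qb))⁻¹ = 1
  rw [add_comm, mul_inv_cancel₀ hu0]

/-- **The power basis**: `K1 = ∑_{i<e} K0·ϖ^i` for a uniformiser `ϖ` of `A ∩ K1` with
`v(ϖ)^e = v(q)`. -/
theorem exists_repr [FiniteDimensional (K0 A) K1] {ϖ : Qb} (hϖK : ϖ ∈ K1) (hϖ0 : ϖ ≠ 0)
    (hUP : ∀ x : Qb, x ∈ K1 → x ≠ 0 → A.valuation x < 1 → A.valuation x ≤ A.valuation ϖ)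
    (e : ℕ) (he : A.valuation ϖ ^ e = A.valuation (q : Qb)) (c : Qb) (hc : c ∈ K1) :
    ∃ a : Fin e → Qb, (∀ i, a i ∈ K0 A) ∧ c = ∑ i, a i * ϖ ^ (i : ℕ) := by
  classical
  have hq0 : (q : Qb) ≠ 0 := Nat.cast_ne_zero.mpr hq.ne_zero
  have hqW : (q : Qb) ∈ WQ A := ⟨q_mem hq hA, natCast_mem (K0 A) q⟩
  obtain ⟨n, b, R, hb, hbd⟩ := exists_bounded hq hA K1
  -- `q^R (A ∩ K1) ⊆ Λ`
  have hΛ : ∀ x : Qb, x ∈ K1 → x ∈ A →
      (q : Qb) ^ R * x ∈ Submodule.span (WQ A) (Set.range b) := by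
    intro x hx hxA
    obtain ⟨w, hw, hxw⟩ := hbd x hx hxA
    rw [hxw]
    refine Submodule.sum_mem _ fun l _ => ?_
    have h1 : w l * b l = (⟨w l, (hw l).2, (hw l).1⟩ : WQ A) • b l := rfl
    rw [h1]
    exact Submodule.smul_mem _ _ (Submodule.subset_span ⟨l, rfl⟩)
  -- Nakayama
  have hNak : Submodule.span (WQ A) (Set.range b) ≤
      Submodule.span (WQ A) (Set.range fun l : Fin e => ϖ ^ (l : ℕ)) := by
    refine Submodule.le_of_le_smul_of_le_jacobson_bot (Submodule.fg_span (Set.finite_range b))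
      (span_q_le_jacobson hq hA) ?_
    rw [Submodule.span_le]
    rintro _ ⟨l, rfl⟩
    obtain ⟨m, hm, z, hzK, hzA, hbz⟩ :=
      approx_q hq hA K1 hϖK hϖ0 hUP e he (R + 1) (b l) (hb l).1 (hb l).2
    show b l ∈ _
    rw [hbz]
    refine Submodule.add_mem_sup hm ?_
    have h1 : (q : Qb) ^ (R + 1) * z = (⟨(q : Qb), hqW⟩ : WQ A) • ((q : Qb) ^ R * z) := by
      rw [Subring.smul_def]
      show (q : Qb) ^ (R + 1) * z = (q : Qb) * ((q : Qb) ^ R * z)
      ring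
    rw [h1]
    exact Submodule.smul_mem_smul (Ideal.mem_span_singleton_self _) (hΛ z hzK hzA)
  -- conclusion
  obtain ⟨t, ht⟩ := exists_pow_mul_mem hq hA c
  have h2 := hNak (hΛ ((q : Qb) ^ t * c) (mul_mem (pow_mem (natCast_mem K1 q) t) hc) ht)
  obtain ⟨w, hw⟩ := (Submodule.mem_span_range_iff_exists_fun (WQ A)).mp h2
  refine ⟨fun i => ((q : Qb) ^ (R + t))⁻¹ * (w i : Qb),
    fun i => mul_mem (inv_mem (pow_mem (natCast_mem (K0 A) q) _)) (w i).2.2, ?_⟩
  have h3 : ∑ i, (w i : Qb) * ϖ ^ (i : ℕ) = (q : Qb) ^ R * ((q : Qb) ^ t * c) := by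
    rw [← hw]
    exact Finset.sum_congr rfl fun i _ => rfl
  have h4 : ∑ i, ((q : Qb) ^ (R + t))⁻¹ * (w i : Qb) * ϖ ^ (i : ℕ)
      = ((q : Qb) ^ (R + t))⁻¹ * ∑ i, (w i : Qb) * ϖ ^ (i : ℕ) := by
    rw [Finset.mul_sum]
    exact Finset.sum_congr rfl fun i _ => by ring
  rw [h4, h3, pow_add]
  field_simp

omit K1 in
/-- Linear independence of `1, ϖ, …, ϖ^{e-1}` over `K0`, in the form `e ≤ [K0(ϖ) : K0]`. -/
theorem le_natDegree_minpoly {ϖ : Qb} (hϖ0 : ϖ ≠ 0) (hϖ1 : A.valuation ϖ < 1) (e : ℕ)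
    (he : A.valuation ϖ ^ e = A.valuation (q : Qb)) :
    e ≤ (minpoly (K0 A) ϖ).natDegree := by
  by_contra hcon
  rw [not_le] at hcon
  haveI : Algebra.IsAlgebraic (K0 A) Qb := isAlgebraic_K0 A
  have hint : IsIntegral (K0 A) ϖ := (Algebra.IsAlgebraic.isAlgebraic ϖ).isIntegral
  have hv0 : A.valuation ϖ ≠ 0 := (Valuation.ne_zero_iff _).mpr hϖ0
  have h1 : aeval ϖ (minpoly (K0 A) ϖ) = 0 := minpoly.aeval _ _
  rw [Polynomial.aeval_eq_sum_range' hcon ϖ] at h1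
  have h2 : ∑ j ∈ Finset.range e, (((minpoly (K0 A) ϖ).coeff j : K0 A) : Qb) * ϖ ^ j = 0 := by
    rw [← h1]
    refine Finset.sum_congr rfl fun j _ => ?_
    rw [Algebra.smul_def]
    rfl
  obtain ⟨n, hn⟩ := exists_zpow_valuation_sum A hϖ0 hϖ1 e
    (fun j => (((minpoly (K0 A) ϖ).coeff j : K0 A) : Qb))
    (fun j hj => by
      have hj' : (minpoly (K0 A) ϖ).coeff j ≠ 0 := fun h0 => hj (by rw [h0]; rfl)
      obtain ⟨m, hm⟩ := exists_zpow_valuation_eq hq hA _ hj'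
      refine ⟨m, ?_⟩
      rw [hm, map_zpow₀, ← he, zpow_mul, zpow_natCast])
    ⟨(minpoly (K0 A) ϖ).natDegree, hcon, by
      have hmonic : (minpoly (K0 A) ϖ).coeff (minpoly (K0 A) ϖ).natDegree = 1 :=
        (minpoly.monic hint).coeff_natDegree
      rw [hmonic]
      exact one_ne_zero⟩
  rw [h2, map_zero] at hn
  exact zpow_ne_zero n hv0 hn.symm

/-- **Finite extensions of `K0` inside `ℚ̄` are totally ramified with a power basis.** -/
theorem exists_totRam [FiniteDimensional (K0 A) K1] :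
    ∃ (e : ℕ) (ϖ : Qb) (σ : Fin e → GQ), 0 < e ∧ ϖ ≠ 0 ∧ A.valuation ϖ < 1 ∧
      A.valuation ϖ ^ e = A.valuation (q : Qb) ∧
      (∀ c : Qb, c ∈ K1 → ∃ a : Fin e → Qb, (∀ i, a i ∈ K0 A) ∧ c = ∑ i, a i * ϖ ^ (i : ℕ)) ∧
      (∀ j, σ j ∈ A.inertiaSubgroupIn ℚ) ∧ Function.Injective (fun j => σ j ϖ) := by
  have hq0 : (q : Qb) ≠ 0 := Nat.cast_ne_zero.mpr hq.ne_zero
  obtain ⟨ϖ, hϖK, hϖ0, hϖ1, hU⟩ := exists_uniformizer hq hA K1
  obtain ⟨e, he0, he⟩ := hU q (natCast_mem K1 q) hq0 (valuation_q_lt_one hq hA)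
  have hUP : ∀ x : Qb, x ∈ K1 → x ≠ 0 → A.valuation x < 1 → A.valuation x ≤ A.valuation ϖ := by
    intro x hx hx0 hx1
    obtain ⟨j, hj0, hj⟩ := hU x hx hx0 hx1
    rw [hj]
    exact pow_le_of_le_one zero_le hϖ1.le hj0.ne'
  obtain ⟨σ, hσ, hinj⟩ := exists_conjugates A ϖ e (le_natDegree_minpoly hq hA hϖ0 hϖ1 e he.symm)
  exact ⟨e, ϖ, σ, he0, hϖ0, hϖ1, he.symm,
    fun c hc => exists_repr hq hA K1 hϖK hϖ0 hUP e he.symm c hc, hσ, hinj⟩

end Basis

end Fermat.Agent.CAR.LiftK0
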