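import Mathlib
import Fermat.Agent.CAR.LiftK0.TotRam
import Fermat.Agent.CAR.LiftK0.CoeffField
import Fermat.Agent.CAR.V3.MidRing

/-!
# CAR / LIFT over `K0` (Lf-5), part 3: descent of Gauss-integral functions to `K0`

`A` a valuation subring of `ℚ̄` over `q`, `K0` its inertia field, `π : A →+* k` with kernel the
non-units.  For a function `y ∈ ℚ̄·F_N` in the Gauss ring (`exists_rational_lift`) there is a
`K0`-rational function `y₀ ∈ K0·F_N` with

* `bcK y₀ = ∑_j C (c j) * σ_j(y)` for finitely many `σ_j` in the inertia group (coefficientwise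
  action) and constants `c j ∈ ℚ̄`;
* `bcK y₀` is in the Gauss ring and has the same reduction as `y`.

Proof: the coefficients of `y` lie in a finite extension `K1 = ⊕_{i<e} K0·ϖ^i` of `K0`
(`CoeffField`, `TotRam`); `y = ∑_i Y_i ϖ^i` with `Y_i` `K0`-rational (Vandermonde in the
conjugates `σ_j ϖ`); the terms `Y_i ϖ^i` have pairwise distinct Gauss valuations
(`GaussDVR` over `K0`), so all `Y_i` are Gauss-integral and `red y = red Y_0`.
-/

set_option autoImplicit false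
set_option linter.unusedSectionVars false
set_option linter.style.haveILetI false

namespace Fermat.Agent.CAR.LiftK0

open HahnSeries ModularCurve Fermat.Agent.Lib.Red Fermat.Agent.CAR.K0
  Fermat.Agent.CAR.V3.GaussDVR Fermat.Agent.ESJ.Dict.Bc

local notation "Qb" => AlgebraicClosure ℚ
local notation "GQ" => (AlgebraicClosure ℚ ≃ₐ[ℚ] AlgebraicClosure ℚ)

/-! ### Coefficients -/

theorem coeff_C_mul {R : Type*} [Field R] (r : R) (f : LaurentSeries R) (n : ℤ) :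
    (HahnSeries.C r * f).coeff n = r * f.coeff n := by
  rw [HahnSeries.C_mul_eq_smul, HahnSeries.coeff_smul, smul_eq_mul]

theorem coeff_mul_C {R : Type*} [Field R] (r : R) (f : LaurentSeries R) (n : ℤ) :
    (f * HahnSeries.C r).coeff n = f.coeff n * r := by
  rw [mul_comm, coeff_C_mul, mul_comm]

/-! ### The decomposition of a series along a power basis -/

section Series

variable {A : ValuationSubring Qb} {e : ℕ} (ϖ : Qb) (σ : Fin e → GQ)
  (hσ : ∀ j, σ j ∈ A.inertiaSubgroupIn ℚ) (c : Fin e → Fin e → Qb)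
  (hc : ∀ i l : Fin e, ∑ j, c i j * (σ j ϖ) ^ (l : ℕ) = if i = l then 1 else 0)

/-- The `i`-th component of `y` along the power basis `ϖ^i`. -/
noncomputable def comp (y : LaurentSeries Qb) (i : Fin e) : LaurentSeries Qb :=
  ∑ j, HahnSeries.C (c i j) * coeffMap ((σ j : Qb ≃ₐ[ℚ] Qb) : Qb →+* Qb) y

theorem comp_coeff (y : LaurentSeries Qb) (i : Fin e) (n : ℤ) :
    (comp σ c y i).coeff n = ∑ j, c i j * σ j (y.coeff n) := by
  rw [comp, HahnSeries.coeff_sum]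
  refine Finset.sum_congr rfl fun j _ => ?_
  rw [coeff_C_mul, coeffMap_coeff]
  rfl

include hσ hc in
/-- The coefficients of the components are the coordinates of the coefficients. -/
theorem comp_coeff_eq (y : LaurentSeries Qb) (n : ℤ) (a : Fin e → Qb) (ha : ∀ i, a i ∈ K0 A)
    (hy : y.coeff n = ∑ i, a i * ϖ ^ (i : ℕ)) (i : Fin e) :
    (comp σ c y i).coeff n = a i := by
  rw [comp_coeff]
  refine sum_conj_eq_coord (fun j => σ j ϖ) c hc a (fun j => σ j (y.coeff n)) (fun j => ?_) i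
  show σ j (y.coeff n) = ∑ l, a l * (σ j ϖ) ^ (l : ℕ)
  rw [hy, map_sum]
  refine Finset.sum_congr rfl fun l _ => ?_
  rw [map_mul, map_pow, inertia_apply_K0 A (hσ j) (ha l)]

include hσ hc in
theorem comp_coeff_mem (y : LaurentSeries Qb)
    (hy : ∀ n, ∃ a : Fin e → Qb, (∀ i, a i ∈ K0 A) ∧ y.coeff n = ∑ i, a i * ϖ ^ (i : ℕ))
    (i : Fin e) (n : ℤ) : (comp σ c y i).coeff n ∈ K0 A := by
  obtain ⟨a, ha, hyn⟩ := hy n
  rw [comp_coeff_eq ϖ σ hσ c hc y n a ha hyn i]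
  exact ha i

include hσ hc in
/-- `y = ∑_i Y_i ϖ^i`. -/
theorem sum_comp (y : LaurentSeries Qb)
    (hy : ∀ n, ∃ a : Fin e → Qb, (∀ i, a i ∈ K0 A) ∧ y.coeff n = ∑ i, a i * ϖ ^ (i : ℕ)) :
    y = ∑ i, comp σ c y i * HahnSeries.C (ϖ ^ (i : ℕ)) := by
  ext n
  obtain ⟨a, ha, hyn⟩ := hy n
  rw [HahnSeries.coeff_sum, hyn]
  refine Finset.sum_congr rfl fun i _ => ?_
  rw [coeff_mul_C, comp_coeff_eq ϖ σ hσ c hc y n a ha hyn i]

end Series

/-! ### The kernel of the reduction map, as a subgroup of `ℚ̄((q))` -/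

section RedKer

variable (A : ValuationSubring Qb) {k : Type*} [Field k] (π : A →+* k)

/-- Elements of the Gauss ring with zero reduction. -/
def redKer : AddSubgroup (LaurentSeries Qb) where
  carrier := {x | ∃ h : x ∈ gaussRing A π, red A π ⟨x, h⟩ = 0}
  add_mem' := by
    rintro a b ⟨ha, ha0⟩ ⟨hb, hb0⟩
    refine ⟨add_mem ha hb, ?_⟩
    have h1 : (⟨a + b, add_mem ha hb⟩ : gaussRing A π) = ⟨a, ha⟩ + ⟨b, hb⟩ := rfl
    rw [h1, map_add, ha0, hb0, add_zero]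
  zero_mem' := by
    refine ⟨zero_mem _, ?_⟩
    have h1 : (⟨0, zero_mem _⟩ : gaussRing A π) = 0 := rfl
    rw [h1, map_zero]
  neg_mem' := by
    rintro a ⟨ha, ha0⟩
    refine ⟨neg_mem ha, ?_⟩
    have h1 : (⟨-a, neg_mem ha⟩ : gaussRing A π) = -⟨a, ha⟩ := rfl
    rw [h1, map_neg, ha0, neg_zero]

variable {A π}

theorem mem_redKer {x : LaurentSeries Qb} :
    x ∈ redKer A π ↔ ∃ h : x ∈ gaussRing A π, red A π ⟨x, h⟩ = 0 := Iff.rfl

theorem mul_mem_redKer {g x : LaurentSeries Qb} (hg : g ∈ gaussRing A π) (hx : x ∈ redKer A π) :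
    g * x ∈ redKer A π := by
  obtain ⟨hx', hx0⟩ := hx
  refine ⟨mul_mem hg hx', ?_⟩
  have h1 : (⟨g * x, mul_mem hg hx'⟩ : gaussRing A π) = ⟨g, hg⟩ * ⟨x, hx'⟩ := rfl
  rw [h1, map_mul, hx0, mul_zero]

theorem mul_mem_redKer' {g x : LaurentSeries Qb} (hx : x ∈ redKer A π) (hg : g ∈ gaussRing A π) :
    x * g ∈ redKer A π := by
  rw [mul_comm]
  exact mul_mem_redKer hg hx

theorem red_eq_of_sub_mem_redKer {x x' : LaurentSeries Qb} (hx : x ∈ gaussRing A π)
    (hx' : x' ∈ gaussRing A π) (h : x - x' ∈ redKer A π) :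
    red A π ⟨x, hx⟩ = red A π ⟨x', hx'⟩ := by
  obtain ⟨h1, h0⟩ := h
  have h2 : (⟨x - x', h1⟩ : gaussRing A π) = ⟨x, hx⟩ - ⟨x', hx'⟩ := rfl
  rw [h2, map_sub, sub_eq_zero] at h0
  exact h0

/-- Constants of valuation `< 1` have zero reduction. -/
theorem C_mem_redKer (hπ : ∀ a : A, ¬ IsUnit a → π a = 0) {a : Qb} (ha : A.valuation a < 1) :
    (HahnSeries.C a : LaurentSeries Qb) ∈ redKer A π := by
  have haA : a ∈ A := (A.valuation_le_one_iff a).mp ha.le
  refine ⟨C_mem_gaussRing A π haA, ?_⟩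
  rw [red_C A π haA, hπ, map_zero]
  rw [A.valuation_eq_one_iff]
  exact ha.ne

/-- Constants of valuation `1` are units of the Gauss ring with nonzero reduction. -/
theorem red_C_ne_zero {a : Qb} (ha : A.valuation a = 1)
    (h : (HahnSeries.C a : LaurentSeries Qb) ∈ gaussRing A π) :
    red A π ⟨HahnSeries.C a, h⟩ ≠ 0 := by
  have haA : a ∈ A := (A.valuation_le_one_iff a).mp ha.le
  rw [red_C A π haA]
  have hu : IsUnit (⟨a, haA⟩ : A) := (A.valuation_eq_one_iff _).mpr ha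
  intro h0
  have h1 : π ⟨a, haA⟩ = 0 := by
    have h2 : (HahnSeries.C (π ⟨a, haA⟩) : LaurentSeries k) = HahnSeries.C 0 := by
      rw [h0, map_zero]
    exact HahnSeries.C_injective h2
  exact (hu.map π).ne_zero h1

end RedKer

/-! ### Orthogonality of the power basis for the Gauss valuation -/

section Ortho

variable {q : ℕ} (hq : q.Prime) {A : ValuationSubring Qb} (hA : A.LiesOverPrime q)
  {k : Type*} [Field k] (π : A →+* k) (hπ : ∀ a : A, ¬ IsUnit a → π a = 0)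
  {ϖ : Qb} (hϖ0 : ϖ ≠ 0) (hϖ1 : A.valuation ϖ < 1) {e : ℕ} (he0 : 0 < e)
  (he : A.valuation ϖ ^ e = A.valuation (q : Qb))

include hq hA hϖ0 he in
/-- Normal form of a nonzero `K0`-rational term `Y·ϖ^i`: it is `ϖ^(e n + i)` times a unit of
the Gauss ring. -/
theorem term_normal {Y : LaurentSeries Qb} (hY : Y ∈ fracRat A (inertiaField A).toSubfield)
    (hY0 : Y ≠ 0) :
    ∃ (n : ℤ) (u U : LaurentSeries Qb) (_ : u ∈ gaussRing A π) (hU : U ∈ gaussRing A π),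
      red A π ⟨U, hU⟩ ≠ 0 ∧ Y = HahnSeries.C ((q : Qb) ^ n) * u ∧
      ∀ i : ℕ, Y * HahnSeries.C (ϖ ^ i) = HahnSeries.C (ϖ ^ ((e : ℤ) * n + i)) * U := by
  have hq0 : (q : Qb) ≠ 0 := Nat.cast_ne_zero.mpr hq.ne_zero
  obtain ⟨n, u, hu, hured, hYu⟩ := (Fermat.Agent.CAR.V3.MidRing.isUnifOn_K0 hq A hA).exists_zpow_mul_unit π hY hY0
  have hv0 : A.valuation ((q : Qb) / ϖ ^ e) = 1 := by
    rw [map_div₀, map_pow, he, div_self (valuation_q_ne_zero hq hA)]
  have hvn : A.valuation (((q : Qb) / ϖ ^ e) ^ n) = 1 := by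
    rw [map_zpow₀, hv0, one_zpow]
  have hCn : (HahnSeries.C (((q : Qb) / ϖ ^ e) ^ n) : LaurentSeries Qb) ∈ gaussRing A π :=
    C_mem_gaussRing A π ((A.valuation_le_one_iff _).mp hvn.le)
  refine ⟨n, u, HahnSeries.C (((q : Qb) / ϖ ^ e) ^ n) * u, hu, mul_mem hCn hu, ?_, hYu, fun i => ?_⟩
  · have h1 : (⟨HahnSeries.C (((q : Qb) / ϖ ^ e) ^ n) * u, mul_mem hCn hu⟩ : gaussRing A π)
        = ⟨_, hCn⟩ * ⟨u, hu⟩ := rfl
    rw [h1, map_mul]
    exact mul_ne_zero (red_C_ne_zero hvn hCn) hured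
  · rw [hYu, ← mul_assoc, mul_comm _ (HahnSeries.C (ϖ ^ i)), ← mul_assoc, ← map_mul, ← map_mul]
    congr 2
    rw [zpow_add₀ hϖ0, zpow_mul, zpow_natCast, zpow_natCast, div_zpow]
    have h2 : (ϖ ^ e) ^ n ≠ 0 := zpow_ne_zero n (pow_ne_zero e hϖ0)
    field_simp

include hq hA hπ hϖ0 hϖ1 he in
/-- **Orthogonality.**  If `∑_{i<e} Y_i ϖ^i` is Gauss-integral with `K0`-rational `Y_i`, then
every `Y_i` is Gauss-integral. -/
theorem comp_mem_gaussRing (Y : Fin e → LaurentSeries Qb)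
    (hY : ∀ i, Y i ∈ fracRat A (inertiaField A).toSubfield)
    (hy : ∑ i, Y i * HahnSeries.C (ϖ ^ (i : ℕ)) ∈ gaussRing A π) (i : Fin e) :
    Y i ∈ gaussRing A π := by
  classical
  have hq0 : (q : Qb) ≠ 0 := Nat.cast_ne_zero.mpr hq.ne_zero
  have hϖA : ϖ ∈ A := (A.valuation_le_one_iff ϖ).mp hϖ1.le
  have hnf : ∀ i : Fin e, Y i ≠ 0 →
      ∃ (n : ℤ) (u U : LaurentSeries Qb) (_ : u ∈ gaussRing A π) (hU : U ∈ gaussRing A π),
        red A π ⟨U, hU⟩ ≠ 0 ∧ Y i = HahnSeries.C ((q : Qb) ^ n) * u ∧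
        ∀ j : ℕ, Y i * HahnSeries.C (ϖ ^ j) = HahnSeries.C (ϖ ^ ((e : ℤ) * n + j)) * U :=
    fun i hi => term_normal hq hA π hϖ0 he (hY i) hi
  choose! n u U hu hU hUred hYu hYU using hnf
  -- all exponents are nonnegative
  have hE : ∀ i, Y i ≠ 0 → 0 ≤ (e : ℤ) * n i + (i : ℕ) := by
    by_contra hcon
    push Not at hcon
    obtain ⟨i1, hi1, hneg⟩ := hcon
    obtain ⟨i0, hi0S, hmin⟩ := (Finset.univ.filter (fun i => Y i ≠ 0)).exists_min_image
      (fun i => (e : ℤ) * n i + (i : ℕ)) ⟨i1, by simp [hi1]⟩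
    have hi0 : Y i0 ≠ 0 := (Finset.mem_filter.mp hi0S).2
    have hm0 : (e : ℤ) * n i0 + (i0 : ℕ) < 0 := lt_of_le_of_lt (hmin i1 (by simp [hi1])) hneg
    obtain ⟨k, hk⟩ : ∃ k : ℕ, (k : ℤ) = -((e : ℤ) * n i0 + (i0 : ℕ)) :=
      ⟨(-((e : ℤ) * n i0 + (i0 : ℕ))).toNat, by omega⟩
    have hk0 : k ≠ 0 := by omega
    have hgt : ∀ i, Y i ≠ 0 → i ≠ i0 →
        (e : ℤ) * n i0 + (i0 : ℕ) < (e : ℤ) * n i + (i : ℕ) := by
      intro i hi hne
      rcases lt_or_eq_of_le (hmin i (by simp [hi])) with h | h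
      · exact h
      · exfalso
        have hi0e : ((i0 : ℕ) : ℤ) < e := by exact_mod_cast i0.2
        have hie : ((i : ℕ) : ℤ) < e := by exact_mod_cast i.2
        have h2 : (e : ℤ) * (n i0 - n i) = (i : ℕ) - (i0 : ℕ) := by
          have h2' : (e : ℤ) * n i0 + (i0 : ℕ) = (e : ℤ) * n i + (i : ℕ) := h
          linarith
        have h3 : n i0 - n i = 0 := by
          by_contra hne0
          have h4 : (e : ℤ) ≤ |(e : ℤ) * (n i0 - n i)| := by
            rw [abs_mul, abs_of_nonneg (by positivity : (0 : ℤ) ≤ e)]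
            exact le_mul_of_one_le_right (by positivity) (Int.one_le_abs hne0)
          rw [h2] at h4
          have h5 : |(((i : ℕ) : ℤ)) - ((i0 : ℕ) : ℤ)| < e := by
            rw [abs_lt]
            constructor <;> omega
          omega
        rw [h3, mul_zero] at h2
        exact hne (Fin.ext (by omega))
    -- the contradiction
    have hCk : (HahnSeries.C (ϖ ^ k) : LaurentSeries Qb) ∈ redKer A π :=
      C_mem_redKer hπ (by rw [map_pow]; exact pow_lt_one₀ zero_le hϖ1 hk0)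
    have hz : HahnSeries.C (ϖ ^ k) * ∑ i, Y i * HahnSeries.C (ϖ ^ (i : ℕ)) ∈ redKer A π :=
      mul_mem_redKer' hCk hy
    rw [Finset.mul_sum, ← Finset.add_sum_erase Finset.univ _ (Finset.mem_univ i0)] at hz
    have hrest : ∑ i ∈ Finset.univ.erase i0,
        HahnSeries.C (ϖ ^ k) * (Y i * HahnSeries.C (ϖ ^ (i : ℕ))) ∈ redKer A π := by
      refine sum_mem fun i hi => ?_
      have hne : i ≠ i0 := (Finset.mem_erase.mp hi).1
      rcases eq_or_ne (Y i) 0 with h0 | h0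
      · rw [h0, zero_mul, mul_zero]
        exact zero_mem _
      · have hlt := hgt i h0 hne
        obtain ⟨d, hd⟩ : ∃ d : ℕ, (d : ℤ) = (e : ℤ) * n i + (i : ℕ) + k :=
          ⟨((e : ℤ) * n i + (i : ℕ) + k).toNat, by omega⟩
        have hd0 : d ≠ 0 := by omega
        have h1 : HahnSeries.C (ϖ ^ k) * (Y i * HahnSeries.C (ϖ ^ (i : ℕ)))
            = HahnSeries.C (ϖ ^ d) * U i := by
          rw [hYU i h0, ← mul_assoc, ← map_mul]
          congr 2
          rw [← zpow_natCast ϖ k, ← zpow_add₀ hϖ0, ← zpow_natCast ϖ d, hd]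
          congr 1
          ring
        rw [h1]
        exact mul_mem_redKer' (C_mem_redKer hπ (by
          rw [map_pow]; exact pow_lt_one₀ zero_le hϖ1 hd0)) (hU i h0)
    have hU0 : HahnSeries.C (ϖ ^ k) * (Y i0 * HahnSeries.C (ϖ ^ (i0 : ℕ))) = U i0 := by
      rw [hYU i0 hi0, ← mul_assoc, ← map_mul]
      have h1 : ϖ ^ k * ϖ ^ ((e : ℤ) * n i0 + (i0 : ℕ)) = 1 := by
        rw [← zpow_natCast ϖ k, ← zpow_add₀ hϖ0, hk, neg_add_cancel, zpow_zero]
      rw [h1, map_one, one_mul]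
    rw [hU0] at hz
    have h6 : U i0 ∈ redKer A π := by
      have := sub_mem hz hrest
      rwa [add_sub_cancel_right] at this
    obtain ⟨h7, h8⟩ := h6
    exact hUred i0 hi0 h8
  -- conclusion
  rcases eq_or_ne (Y i) 0 with h0 | h0
  · rw [h0]
    exact zero_mem _
  · have h1 := hE i h0
    have hn : 0 ≤ n i := by
      by_contra hcon
      have h2 : (e : ℤ) * n i ≤ (e : ℤ) * (-1) :=
        mul_le_mul_of_nonneg_left (by omega) (by positivity)
      have h3 : ((i : ℕ) : ℤ) < e := by exact_mod_cast i.2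
      omega
    obtain ⟨m, hm⟩ := Int.eq_ofNat_of_zero_le hn
    rw [hYu i h0, hm, zpow_natCast]
    exact mul_mem (C_mem_gaussRing A π (pow_mem (q_mem hq hA) m)) (hu i h0)

include hq hA hπ hϖ0 hϖ1 he in
/-- **Orthogonality, reduction.**  `red (∑_{i<e} Y_i ϖ^i) = red Y_0`. -/
theorem red_sum_comp (Y : Fin e → LaurentSeries Qb)
    (hY : ∀ i, Y i ∈ fracRat A (inertiaField A).toSubfield)
    (hy : ∑ i, Y i * HahnSeries.C (ϖ ^ (i : ℕ)) ∈ gaussRing A π)
    (h0 : Y ⟨0, he0⟩ ∈ gaussRing A π) :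
    red A π ⟨∑ i, Y i * HahnSeries.C (ϖ ^ (i : ℕ)), hy⟩ = red A π ⟨Y ⟨0, he0⟩, h0⟩ := by
  classical
  refine red_eq_of_sub_mem_redKer hy h0 ?_
  rw [← Finset.add_sum_erase Finset.univ _ (Finset.mem_univ (⟨0, he0⟩ : Fin e))]
  have h1 : Y ⟨0, he0⟩ * HahnSeries.C (ϖ ^ ((⟨0, he0⟩ : Fin e) : ℕ)) = Y ⟨0, he0⟩ := by
    show Y ⟨0, he0⟩ * HahnSeries.C (ϖ ^ 0) = Y ⟨0, he0⟩
    rw [pow_zero, map_one, mul_one]
  rw [h1, add_sub_cancel_left]
  refine sum_mem fun i hi => ?_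
  have hne : i ≠ ⟨0, he0⟩ := (Finset.mem_erase.mp hi).1
  have hi0 : (i : ℕ) ≠ 0 := fun h => hne (Fin.ext h)
  exact mul_mem_redKer (comp_mem_gaussRing hq hA π hπ hϖ0 hϖ1 he Y hY hy i)
    (C_mem_redKer hπ (by rw [map_pow]; exact pow_lt_one₀ zero_le hϖ1 hi0))

end Ortho

end Fermat.Agent.CAR.LiftK0
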