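import Mathlib
import Fermat.Prelude.Def_ModularCurve_LaurentCoeff

/-!
# CAR / (Lf-5): descent of span membership along an extension of the coefficient field

`mem_span_of_coeffMap_mem_span`: for fields `K ⊆ L`, a Laurent series `w` over `K` whose base
change lies in the `L`-span of the base changes of a set `T` of Laurent series over `K` lies in
the `K`-span of `T`.  (Apply a `K`-linear retraction `L → K` of the inclusion coefficientwise.)

This is the linear-algebra core of the descent of integrality along `K·F_N → L·F_N`:
`z ^ n ∈ span_L {x ^ l * z ^ i : i < n}` implies `z ^ n ∈ span_K {x ^ l * z ^ i : i < n}`.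
-/

set_option autoImplicit false

namespace Fermat.Agent.CAR.LiftK0.SpanDescent

open HahnSeries ModularCurve

noncomputable section

variable {K L : Type*} [Field K] [Field L] [Algebra K L]

/-- Coefficientwise application of a `K`-linear form `L → K`. -/
def mapForm (lam : L →ₗ[K] K) (s : LaurentSeries L) : LaurentSeries K := s.map lam

theorem mapForm_coeff (lam : L →ₗ[K] K) (s : LaurentSeries L) (m : ℤ) :
    (mapForm lam s).coeff m = lam (s.coeff m) := rfl

theorem mapForm_smul_coeffMap (lam : L →ₗ[K] K) (c : L) (t : LaurentSeries K) :
    mapForm lam (c • coeffMap (algebraMap K L) t) = lam c • t := by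
  ext m
  rw [mapForm_coeff, HahnSeries.coeff_smul, HahnSeries.coeff_smul, coeffMap_coeff, smul_eq_mul,
    smul_eq_mul, mul_comm, ← Algebra.smul_def, map_smul, smul_eq_mul, mul_comm]

/-- **Descent of span membership.**  If `w` has coefficients in `K` and lies in the `L`-span of
series with coefficients in `K`, it lies in their `K`-span. -/
theorem mem_span_of_coeffMap_mem_span (T : Set (LaurentSeries K)) (w : LaurentSeries K)
    (h : coeffMap (algebraMap K L) w ∈
      Submodule.span L (coeffMap (algebraMap K L) '' T)) :
    w ∈ Submodule.span K T := by
  obtain ⟨lam, hlam⟩ := LinearMap.exists_leftInverse_of_injective (Algebra.linearMap K L)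
    (LinearMap.ker_eq_bot.mpr (algebraMap K L).injective)
  have hlam1 : lam 1 = 1 := by
    have := congrArg (fun f : K →ₗ[K] K => f 1) hlam
    simpa using this
  have key : ∀ s ∈ Submodule.span L (coeffMap (algebraMap K L) '' T),
      ∀ c : L, mapForm lam (c • s) ∈ Submodule.span K T := by
    intro s hs
    induction hs using Submodule.span_induction with
    | mem s hs =>
      obtain ⟨t, ht, rfl⟩ := hs
      intro c
      rw [mapForm_smul_coeffMap]
      exact Submodule.smul_mem _ _ (Submodule.subset_span ht)
    | zero =>
      intro c
      rw [smul_zero]
      have : mapForm lam (0 : LaurentSeries L) = 0 := by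
        ext m
        rw [mapForm_coeff, HahnSeries.coeff_zero, HahnSeries.coeff_zero, map_zero]
      rw [this]
      exact Submodule.zero_mem _
    | add u v _ _ hu hv =>
      intro c
      have : mapForm lam (c • (u + v)) = mapForm lam (c • u) + mapForm lam (c • v) := by
        ext m
        rw [smul_add, mapForm_coeff, HahnSeries.coeff_add, HahnSeries.coeff_add, mapForm_coeff,
          mapForm_coeff, map_add]
      rw [this]
      exact Submodule.add_mem _ (hu c) (hv c)
    | smul a v _ hv =>
      intro c
      rw [smul_smul]
      exact hv (c * a)
  have h1 := key _ h 1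
  rw [one_smul] at h1
  have h2 : mapForm lam (coeffMap (algebraMap K L) w) = w := by
    have := mapForm_smul_coeffMap lam 1 w
    rwa [one_smul, hlam1, one_smul] at this
  rwa [h2] at h1

end

end Fermat.Agent.CAR.LiftK0.SpanDescent
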