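/-
CAR (Lf-5), closed forms (helper96): **(T3) and (T3') over the inertia field `(K0, W0, resW0)`**
for the three base functions `J(q^N)` (residue characteristic `≥ 5`), `y₂(q^m)` (level `m * 2`,
residue characteristic `≠ 2`) and `t₃(q^m)` (level `m * 3`, residue characteristic `≠ 3`), in the
literal shape `Lift.T3 B₀ (K0.resW0_eq_zero_of_not_isUnit A) hN` consumed by
`Lift.lift_frac / lift_sep / lift_frac_inf / lift_sep_inf / isIntegral_xt_iff_exists_lift` at
`(L, A, π) = (K0, W0, resW0)`.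

From helper37's descent `T3_K0 / T3'_K0` (`CAR/LiftK0/T3K0.lean`), RED's `DiscInst.hT3_of*` over
`ℚ̄`, and the correspondences `bcK B₀.x = B.x` of `CAR/LiftK0/T3K0Inst.lean`.
-/
import Mathlib
import Fermat.Agent.CAR.LiftK0.T3K0
import Fermat.Agent.CAR.LiftK0.T3K0Inst

set_option autoImplicit false
set_option linter.unusedSectionVars false

namespace Fermat.Agent.CAR.LiftK0.Inst

open AlgebraicCurve ModularCurve HahnSeries
open Fermat.Agent.Lib.Red Fermat.Agent.Lib.Red.BaseFn Fermat.Agent.ESJ.Dict.Bc Fermat.Agent.S28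
open Fermat.Agent.Padic

local notation "Qb" => AlgebraicClosure ℚ

noncomputable section

variable {A : ValuationSubring Qb} {q : ℕ}

set_option synthInstance.maxHeartbeats 400000 in
/-- The descent statement (helper37's `T3_K0`). -/
theorem t3Descent (hq : q.Prime) (hA : A.LiesOverPrime q) (N : ℕ) [NeZero N]
    (hN : (N : IsLocalRing.ResidueField A) ≠ 0) : T3Descent A N hN :=
  fun B₀ B hx h => T3_K0 A N hq hA hN B₀ B hx h

set_option synthInstance.maxHeartbeats 400000 in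
/-- The descent statement (helper37's `T3'_K0`). -/
theorem t3'Descent (hq : q.Prime) (hA : A.LiesOverPrime q) (N : ℕ) [NeZero N]
    (hN : (N : IsLocalRing.ResidueField A) ≠ 0) : T3'Descent A N hN :=
  fun B₀ B hx h => T3'_K0 A N hq hA hN B₀ B hx h

/-! ### Residue characteristic bookkeeping -/

/-- The residue field of `A` has characteristic `q`. -/
theorem charP_residueField (hq : q.Prime) (hA : A.LiesOverPrime q) :
    CharP (IsLocalRing.ResidueField A) q :=
  (CharP.charP_iff_prime_eq_zero hq).mpr (K0.resW0_natCast_eq_zero hq hA)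

/-- A natural number prime to `q` is nonzero in the residue field. -/
theorem natCast_ne_zero_of_not_dvd (hq : q.Prime) (hA : A.LiesOverPrime q) {n : ℕ}
    (hn : ¬ q ∣ n) : (n : IsLocalRing.ResidueField A) ≠ 0 := by
  have := charP_residueField hq hA
  exact fun h0 => hn ((CharP.cast_eq_zero_iff (IsLocalRing.ResidueField A) q n).mp h0)

theorem ofNat_1728_ne_zero (hq : q.Prime) (hA : A.LiesOverPrime q) (hq5 : 5 ≤ q) :
    (1728 : IsLocalRing.ResidueField A) ≠ 0 := by
  have h := natCast_ne_zero_of_not_dvd hq hA (n := 1728) (by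
    intro hd
    have h1 : q ∣ 2 ^ 6 * 3 ^ 3 := by norm_num; exact hd
    rcases (Nat.Prime.dvd_mul hq).mp h1 with h2 | h3
    · have := (Nat.prime_dvd_prime_iff_eq hq Nat.prime_two).mp (hq.dvd_of_dvd_pow h2)
      omega
    · have := (Nat.prime_dvd_prime_iff_eq hq Nat.prime_three).mp (hq.dvd_of_dvd_pow h3)
      omega)
  exact_mod_cast h

theorem ofNat_two_ne_zero (hq : q.Prime) (hA : A.LiesOverPrime q) (hq2 : q ≠ 2) :
    (2 : IsLocalRing.ResidueField A) ≠ 0 := by
  have h := natCast_ne_zero_of_not_dvd hq hA (n := 2) (by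
    intro hd
    exact hq2 ((Nat.prime_dvd_prime_iff_eq hq Nat.prime_two).mp hd))
  exact_mod_cast h

theorem ofNat_three_ne_zero (hq : q.Prime) (hA : A.LiesOverPrime q) (hq3 : q ≠ 3) :
    (3 : IsLocalRing.ResidueField A) ≠ 0 := by
  have h := natCast_ne_zero_of_not_dvd hq hA (n := 3) (by
    intro hd
    exact hq3 ((Nat.prime_dvd_prime_iff_eq hq Nat.prime_three).mp hd))
  exact_mod_cast h

/-! ### The closed forms -/

set_option synthInstance.maxHeartbeats 400000 in
/-- **(T3) over `(K0, W0, resW0)` for `x = J(q^N)`**, `q ≥ 5`. -/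
theorem T3_ofJ_K0 (hq : q.Prime) (hA : A.LiesOverPrime q) (hq5 : 5 ≤ q) (N : ℕ) [NeZero N]
    (hN : (N : IsLocalRing.ResidueField A) ≠ 0) :
    Lift.T3 (Data.ofJ (K0.W0 A) (K0.resW0 A) N) (K0.resW0_eq_zero_of_not_isUnit A) hN :=
  T3_ofJ_K0_of (t3Descent hq hA N hN) (ofNat_1728_ne_zero hq hA hq5)

set_option synthInstance.maxHeartbeats 400000 in
/-- **(T3') over `(K0, W0, resW0)` for `x = J(q^N)`**, `q ≥ 5`. -/
theorem T3'_ofJ_K0 (hq : q.Prime) (hA : A.LiesOverPrime q) (hq5 : 5 ≤ q) (N : ℕ) [NeZero N]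
    (hN : (N : IsLocalRing.ResidueField A) ≠ 0) :
    Lift.T3' (Data.ofJ (K0.W0 A) (K0.resW0 A) N) (K0.resW0_eq_zero_of_not_isUnit A) hN :=
  T3'_ofJ_K0_of (t3'Descent hq hA N hN) (ofNat_1728_ne_zero hq hA hq5)

set_option synthInstance.maxHeartbeats 400000 in
/-- **(T3) over `(K0, W0, resW0)` for the Hauptmodul of level 2** (`q ≠ 2`; used for `q = 3`). -/
theorem T3_ofHaupt2_K0 (hq : q.Prime) (hA : A.LiesOverPrime q) {M m : ℕ} [NeZero M] [NeZero m]
    (hM : M = m * 2) (hN : (M : IsLocalRing.ResidueField A) ≠ 0)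
    (h2 : (2 : IsLocalRing.ResidueField A) ≠ 0) :
    Lift.T3 (ofHaupt2 (K0.W0 A) (K0.resW0 A) M m hM h2) (K0.resW0_eq_zero_of_not_isUnit A) hN :=
  T3_ofHaupt2_K0_of hM (t3Descent hq hA M hN) h2

set_option synthInstance.maxHeartbeats 400000 in
/-- **(T3') over `(K0, W0, resW0)` for the Hauptmodul of level 2.** -/
theorem T3'_ofHaupt2_K0 (hq : q.Prime) (hA : A.LiesOverPrime q) {M m : ℕ} [NeZero M] [NeZero m]
    (hM : M = m * 2) (hN : (M : IsLocalRing.ResidueField A) ≠ 0)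
    (h2 : (2 : IsLocalRing.ResidueField A) ≠ 0) :
    Lift.T3' (ofHaupt2 (K0.W0 A) (K0.resW0 A) M m hM h2) (K0.resW0_eq_zero_of_not_isUnit A) hN :=
  T3'_ofHaupt2_K0_of hM (t3'Descent hq hA M hN) h2

set_option synthInstance.maxHeartbeats 400000 in
/-- **(T3) over `(K0, W0, resW0)` for the Hauptmodul of level 3** (`q ≠ 3`; used for `q = 2`). -/
theorem T3_ofHaupt3_K0 (hq : q.Prime) (hA : A.LiesOverPrime q) {M m : ℕ} [NeZero M] [NeZero m]
    (hM : M = m * 3) (hN : (M : IsLocalRing.ResidueField A) ≠ 0)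
    (h3 : (3 : IsLocalRing.ResidueField A) ≠ 0) :
    Lift.T3 (ofHaupt3 (K0.W0 A) (K0.resW0 A) M m hM h3) (K0.resW0_eq_zero_of_not_isUnit A) hN :=
  T3_ofHaupt3_K0_of hM (t3Descent hq hA M hN) h3

set_option synthInstance.maxHeartbeats 400000 in
/-- **(T3') over `(K0, W0, resW0)` for the Hauptmodul of level 3.** -/
theorem T3'_ofHaupt3_K0 (hq : q.Prime) (hA : A.LiesOverPrime q) {M m : ℕ} [NeZero M] [NeZero m]
    (hM : M = m * 3) (hN : (M : IsLocalRing.ResidueField A) ≠ 0)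
    (h3 : (3 : IsLocalRing.ResidueField A) ≠ 0) :
    Lift.T3' (ofHaupt3 (K0.W0 A) (K0.resW0 A) M m hM h3) (K0.resW0_eq_zero_of_not_isUnit A) hN :=
  T3'_ofHaupt3_K0_of hM (t3'Descent hq hA M hN) h3

end

end Fermat.Agent.CAR.LiftK0.Inst
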